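import Fermat.Agent.LevelLowering.Core.Basic
import Fermat.Agent.LocalThree.Symbols
import Fermat.Agent.ModularityLifting.Degeneracy.ModP

/-!
# The bottom level of a minimal counterexample

Residual modularity gives a residual eigensymbol at the level `M E`, so the residual representation
is unramified outside it and has Taylor–Wiles data (`exists_twData`).  Adding such primes at most
doubles the eigenpart, which is zero when a prime of the minimal level is left out; hence the
rank bound `LowerSetup.exists_rank_bound` used by `LevelLowering.Core.Final`.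
-/

set_option autoImplicit false

noncomputable section

open IsLocalRing WeierstrassCurve

namespace FLTAgent.LevelLowering

open FLTAgent.Density (GalQ Qbar)
open FLTAgent.DefRing FLTAgent.ModularityLifting FLTAgent.GaloisAttach FLTAgent.LevelRaising
  FLTAgent.HeckePoints

variable {p : ℕ} [Fact p.Prime] {W : WeierstrassCurve ℤ} {O : Type} [CommRing O] [IsDomain O]
  [IsDiscreteValuationRing O] [IsAdicComplete (maximalIdeal O) O] [Finite (ResidueField O)]
  [CharZero O] [CharP (ResidueField O) p]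

namespace LowerSetup

variable (S : LowerSetup p W O)

omit [IsAdicComplete (maximalIdeal O) O] [Finite (ResidueField O)] [CharZero O]
  [CharP (ResidueField O) p] [Fact p.Prime] in
theorem level_ne_zero : S.M * S.E ≠ 0 := by
  refine mul_ne_zero S.sqfree.ne_zero ?_
  by_cases h : p = 3
  · exact (S.E_three h).1.ne_zero
  · rw [S.E_eq h]
    exact one_ne_zero

omit [IsAdicComplete (maximalIdeal O) O] [Finite (ResidueField O)] [CharZero O]
  [CharP (ResidueField O) p] [Fact p.Prime] in
theorem hell (N : ℕ) : p = 3 → ∃ s, s.Prime ∧ s ∣ N * S.E ∧ s % 3 = 2 := fun h =>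
  ⟨S.E, (S.E_three h).1, dvd_mul_left _ _, (S.E_three h).2.1⟩

omit [IsAdicComplete (maximalIdeal O) O] [Finite (ResidueField O)] [CharZero O]
  [CharP (ResidueField O) p] in
theorem mem_badSet_of_dvd {l : ℕ} (hl : l.Prime) (h : l ∣ S.M * S.E * p) : l ∈ S.badSet :=
  Finset.mem_union_left _ (Nat.mem_primeFactors.mpr
    ⟨hl, h, mul_ne_zero S.level_ne_zero (Fact.out : p.Prime).ne_zero⟩)

omit [IsAdicComplete (maximalIdeal O) O] [Finite (ResidueField O)] [CharZero O]
  [CharP (ResidueField O) p] in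
theorem good_of_notMem {l : ℕ} (hl : l.Prime) (h : l ∉ S.badSet) :
    W.IsGoodPrimeFor l ∧ l ≠ p ∧ ¬ l ∣ S.M * S.E :=
  ⟨fun hd => h (Finset.mem_union_right _ ((Start.mem_badPrimes S.disc_ne).mpr ⟨hl, hd⟩)),
    fun e => h (S.mem_badSet_of_dvd hl (dvd_mul_of_dvd_right e.dvd _)),
    fun hd => h (S.mem_badSet_of_dvd hl (hd.mul_right p))⟩

omit [IsAdicComplete (maximalIdeal O) O] [Finite (ResidueField O)] [CharZero O]
  [CharP (ResidueField O) p] in
theorem residue_lift_eq {l : ℕ} (hl : l.Prime) (h : l ∉ S.badSet) :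
    residue O (S.lift l) = (W.apOfModel l : ResidueField O) := by
  obtain ⟨hg, hlp, -⟩ := S.good_of_notMem hl h
  rw [lift, Function.surjInv_eq residue_surjective]
  exact S.trace_good l hl hg hlp _ (Start.place_spec l hl) _ (Start.frob_spec l hl)

omit [IsAdicComplete (maximalIdeal O) O] [Finite (ResidueField O)] [CharZero O]
  [CharP (ResidueField O) p] in
theorem residue_lift {l : ℕ} (hl : l.Prime) (h : l ∉ S.badSet)
    (P : ValuationSubring Qbar) (hP : P.LiesOverPrime l) (φ : GalQ) (hφ : P.IsFrobeniusAt φ l) :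
    residue O (S.lift l) = (S.R.rep φ).trace := by
  obtain ⟨hg, hlp, -⟩ := S.good_of_notMem hl h
  rw [S.residue_lift_eq hl h, S.trace_good l hl hg hlp P hP φ hφ]

omit [IsAdicComplete (maximalIdeal O) O] [Finite (ResidueField O)] [CharZero O] in
/-- The residual eigensymbol, at every multiple of the bottom level. -/
theorem exists_bottom_symbol {L : ℕ} [NeZero L] (hdvd : S.M * S.E ∣ L) (T : Finset ℕ)
    (hT : S.badSet ⊆ T) (hL : ∀ l, l.Prime → l ∣ L → l ∈ T) :
    ∃ Φ ∈ eigenPart (ResidueField O) (1 : DirichletCharacter (ResidueField O) L) T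
      (residue O ∘ S.lift), Φ ≠ 0 := by
  obtain ⟨f, 𝔪, hf, hmax, hpm, hfa⟩ := S.residual
  have : NeZero (S.M * S.E) := ⟨S.level_ne_zero⟩
  obtain ⟨Φ, hΦ, hΦ0, hev⟩ :=
    LocalThree.exists_residual_symb (ResidueField O) hf hmax hpm W.apOfModel
    (fun l => l ∉ S.badSet) fun l hl hlM h =>
      hfa l hl (S.good_of_notMem hl h).1 hlM (S.good_of_notMem hl h).2.1
  refine ⟨Φ, (mem_eigenPart_one_iff hL).mpr ⟨lev_mono hdvd hΦ, fun l hl hlT => ⟨1, ?_⟩⟩, hΦ0⟩
  have hlS : l ∉ S.badSet := fun h => hlT (hT h)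
  rw [pow_one, tShift_apply, hev l hl (S.good_of_notMem hl hlS).2.2 hlS, Function.comp_apply,
    S.residue_lift_eq hl hlS, sub_self]

/-- residual modularity gives unramifiedness outside the level -/
theorem unramified_of_not_dvd (hp2 : p ≠ 2) {l : ℕ} (hl : l.Prime)
    (h : ¬ l ∣ S.M * S.E * p) : UnramifiedAt S.R.rep l := by
  classical
  set L := S.M * S.E with hLdef
  have : NeZero L := ⟨S.level_ne_zero⟩
  have hSp : ∀ q, q.Prime → q ∣ L * p → q ∈ S.badSet := fun q hq => S.mem_badSet_of_dvd hq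
  have hSL : ∀ q, q.Prime → q ∣ L → q ∈ S.badSet := fun q hq hd => hSp q hq (hd.mul_right p)
  have ha : ∀ q, q.Prime → q ∉ S.badSet → ∀ P : ValuationSubring Qbar, P.LiesOverPrime q →
      ∀ φ, P.IsFrobeniusAt φ q → residue O (S.lift q) = (S.R.rep φ).trace :=
    fun q hq hqS => S.residue_lift hq hqS
  obtain ⟨Φ₀, hΦ₀, hΦ₀0⟩ := S.exists_bottom_symbol (L := L) dvd_rfl S.badSet subset_rfl hSL
  obtain ⟨C, _, _, _, _, _, _, _, _, _, j, Φ, c, hj, hpC, hΦ, hΦ0, hΦa, hres⟩ :=
    exists_eigensymbol_of_ne_bot hp2 (S.hell S.M) hSp (exists_ne_eisenstein S.R hp2 ha)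
      fun e => hΦ₀0 ((Submodule.eq_bot_iff _).mp e Φ₀ hΦ₀)
  have : CharZero (Kbar O) := charZero_of_injective_ringHom (algebraMap_kbar_injective O)
  set ι := ResidueField.map (algebraMap O C)
  have hresR : ∀ q, q.Prime → q ∉ S.badSet → ∀ P : ValuationSubring Qbar, P.LiesOverPrime q →
      ∀ σ, P.IsFrobeniusAt σ q → residue C (c q) = ι (S.R.rep σ).trace :=
    fun q hq hqS P hP σ hσ => by rw [hres q hq hqS, ha q hq hqS P hP σ hσ]
  have hpS : p ∈ S.badSet := hSp p Fact.out (dvd_mul_left p L)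
  obtain ⟨f, hf, Ψ, -, -, -, M', hM'0, g, hM', hnew⟩ := exists_point_newform (hpC := hpC) j hj ∅
    (by simp) (fun t => (1 : DirichletCharacter C t)) (by simp) (M := L) (NeZero.ne _) (by simp)
    (L := L) (by simp) (1 : DirichletCharacter C L)
    (fun x hx => by rw [MulChar.one_apply hx, Finset.prod_empty]) S.badSet hpS hSL c
    (by rw [MulChar.ringHomComp_one, symbChar_eq_lev]; exact hΦ) hΦ0
    (fun q hq hqS => by
      have hqL : ¬ q ∣ L := fun hd => hqS (hSL q hq hd)
      rw [MulChar.ringHomComp_one, tOpChar_one hq hqL]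
      exact hΦa q hq hqL)
    hp2 S.R ι S.badSet subset_rfl (fun q hq hqS P hP σ hσ => by
      rw [Finset.prod_empty, one_mul]; exact hresR q hq hqS P hP σ hσ)
  simp only [Finset.prod_empty, one_mul] at hf
  simp only [Finset.prod_empty, mul_one] at hM'
  obtain ⟨ρ, hρ, hdet, htr, hρres⟩ := hf.exists_rep hp2 hpS mem_maximalIdeal_of_charP S.R hresR
  have hunr : UnramifiedAt ρ l := (hnew ρ hρ hdet htr).unramifiedAt
    (by rw [hρres]; exact absIrreducibleOn_map ι S.R.irr) hl
    (fun e => h (dvd_mul_of_dvd_right e.dvd _)) fun hd => h ((hd.trans hM').mul_right p)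
  intro P hP σ hσ
  have h1 : mapRep ι S.R.rep σ = 1 := by
    rw [← hρres, mapRep_eq_map, hunr P hP σ hσ, ← RingHom.mapMatrix_apply, map_one]
  refine Matrix.map_injective ι.injective ?_
  show (S.R.rep σ).map ι = (1 : Matrix (Fin 2) (Fin 2) (ResidueField O)).map ι
  rw [← mapRep_eq_map, h1, ← RingHom.mapMatrix_apply, map_one]

/-- the inputs of `exists_twPrimes_of` -/
theorem exists_twData (hp2 : p ≠ 2)
    (hflat : ∀ ρ : GalQ →* GL (Fin 2) (ResidueField O), GaloisFactorsThroughFiniteLevel ρ →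
      (∀ g, (TWPrimes.mat ρ g).det =
        ZMod.castHom (dvd_refl p) (ResidueField O) (ExtCitation.cycloChar p g : ZMod p)) →
      ∀ V : Submodule (ResidueField O) (GalQ → Matrix (Fin 2) (Fin 2) (ResidueField O)),
        (∀ c ∈ V, TWPrimes.IsFlatClass p ρ c) →
        Module.Finite (ResidueField O)
            ((V.map (TWPrimes.resLin p)).map (TWPrimes.adCob (TWPrimes.locHom p ρ)).mkQ) ∧
          TWPrimes.classDim (TWPrimes.locHom p ρ) (V.map (TWPrimes.resLin p)) ≤
            Module.finrank (ResidueField O) (TWPrimes.adFixed (TWPrimes.locHom p ρ)) + 1) :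
    ∃ r, ∀ n, Nonempty (TWData S r n) := by
  have hprime : ∀ q ∈ S.badSet, q.Prime := fun q hq => by
    rcases Finset.mem_union.mp hq with h | h
    · exact Nat.prime_of_mem_primeFactors h
    · exact ((Start.mem_badPrimes S.disc_ne).mp h).1
  have hloc : S.loc ⊆ S.badSet := fun q hq => by
    obtain ⟨hq1, hq2, -⟩ := Nat.mem_primeFactors.mp hq
    exact S.mem_badSet_of_dvd hq1 ((hq2.mul_right _).mul_right _)
  obtain ⟨r, hr⟩ := exists_twPrimes_of p hp2 hflat S.R.rep S.R.finite S.R.det S.R.irr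
    S.irr_index_two S.split S.badSet hprime (S.mem_badSet_of_dvd Fact.out (dvd_mul_left p _))
    (fun q hq hqS => S.unramified_of_not_dvd hp2 hq fun hd => hqS (S.mem_badSet_of_dvd hq hd))
    S.loc hloc
  refine ⟨r, fun n => ?_⟩
  obtain ⟨qv, hinj, hqv, hbound⟩ := hr n
  exact ⟨{
    q := qv
    inj := hinj
    prime := fun i => (hqv i).1
    not_mem := fun i => (hqv i).2.1
    mod_pow := fun i => (hqv i).2.2.1
    distinct := fun i => (hqv i).2.2.2
    bound := hbound Start.place fun v hv => Start.place_spec v (hprime v (hloc hv)) }⟩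

end LowerSetup

namespace TWData

variable {S : LowerSetup p W O} {r n : ℕ} (Q : TWData S r n)

omit [IsAdicComplete (maximalIdeal O) O] [Finite (ResidueField O)] [CharZero O] in
theorem trace_sq_ne (i : Fin r) (P : ValuationSubring Qbar)
    (hP : P.LiesOverPrime (Q.q i)) (φ : GalQ) (hφ : P.IsFrobeniusAt φ (Q.q i)) :
    (S.R.rep φ).trace ^ 2 ≠ (1 + (Q.q i : ResidueField O)) ^ 2 := by
  obtain ⟨α, β, hne, hs, hpr⟩ := Q.distinct i P hP φ hφ
  have hq1 : (Q.q i : ResidueField O) = 1 := by
    rw [← Nat.cast_one, CharP.natCast_eq_natCast (ResidueField O) p]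
    refine Nat.ModEq.of_dvd (dvd_pow_self p (Nat.succ_ne_zero n)) ?_
    show Q.q i % _ = 1 % _
    rw [Q.mod_pow i,
      Nat.mod_eq_of_lt (Nat.one_lt_pow (Nat.succ_ne_zero n) (Fact.out : p.Prime).one_lt)]
  have hqp : Q.q i ≠ p := fun e =>
    Q.not_mem i (S.mem_badSet_of_dvd (Q.prime i) (dvd_mul_of_dvd_right e.dvd _))
  have hd := PointsDatum.det_frobenius_residual (Fact.out : p.Prime) S.R.det (Q.prime i) hqp hP hφ
  rw [hq1, ← hpr] at hd
  intro h
  rw [hq1, ← hs] at h
  exact hne (sub_eq_zero.mp (eq_zero_of_pow_eq_zero (n := 2) (by linear_combination h - 4 * hd)))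

omit [IsAdicComplete (maximalIdeal O) O] [Finite (ResidueField O)] [CharZero O]
  [CharP (ResidueField O) p] in
theorem mem_badSet_of_part {N : ℕ} (hN : N ∣ S.M * S.E) (s : Finset (Fin r)) {l : ℕ} (hl : l.Prime)
    (h : l ∣ N * (∏ i ∈ s, Q.q i) * p) : l ∈ Q.badSet := by
  rcases hl.dvd_mul.mp h with h | h
  · rcases hl.dvd_mul.mp h with h | h
    · exact Finset.mem_union_left _ (S.mem_badSet_of_dvd hl ((h.trans hN).mul_right p))
    · obtain ⟨i, -, hi⟩ := hl.prime.exists_mem_finset_dvd h
      exact Finset.mem_union_right _ (Finset.mem_image.mpr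
        ⟨i, Finset.mem_univ _, ((Nat.prime_dvd_prime_iff_eq hl (Q.prime i)).mp hi).symm⟩)
  · exact Finset.mem_union_left _ (S.mem_badSet_of_dvd hl (h.mul_left _))

/-- The residual eigenpart at a level of Taylor–Wiles primes. -/
abbrev resEigen (L : ℕ) : Submodule (ResidueField O) (Cusp → Cusp → ResidueField O) :=
  eigenPart (ResidueField O) (1 : DirichletCharacter (ResidueField O) L) Q.badSet
    (residue O ∘ S.lift)

omit [Fact (Nat.Prime p)] [IsAdicComplete (maximalIdeal O) O] [Finite (ResidueField O)] [CharZero O]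
  [CharP (ResidueField O) p] in
theorem finite_resEigen {L : ℕ} [NeZero L] (hL : ∀ l, l.Prime → l ∣ L → l ∈ Q.badSet) :
    Module.Finite (ResidueField O) (Q.resEigen L) :=
  haveI := finite_symbChar (R := ResidueField O) (1 : DirichletCharacter (ResidueField O) L)
  Module.Finite.of_injective
    (Submodule.inclusion (fun _ hv => ((mem_eigenPart_iff hL).mp hv).1 :
      _ ≤ SymbChar (ResidueField O) (1 : DirichletCharacter (ResidueField O) L)))
    (Submodule.inclusion_injective _)

/-- Each Taylor–Wiles prime at most doubles the eigenpart. -/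
theorem finrank_resEigen_le (hp2 : p ≠ 2) {N : ℕ}
    (hN : N ∣ S.M * S.E) (hell : p = 3 → ∃ s, s.Prime ∧ s ∣ N ∧ s % 3 = 2)
    (s : Finset (Fin r)) :
    Module.finrank (ResidueField O) (Q.resEigen (N * ∏ i ∈ s, Q.q i)) ≤
      2 ^ s.card * Module.finrank (ResidueField O) (Q.resEigen N) := by
  classical
  induction s using Finset.induction_on with
  | empty => rw [Finset.prod_empty, mul_one, Finset.card_empty, pow_zero, one_mul]
  | insert i s his ih =>
    set N' := N * ∏ k ∈ s, Q.q k with hN'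
    have hN'0 : N' ≠ 0 := mul_ne_zero (fun e => S.level_ne_zero (zero_dvd_iff.mp (e ▸ hN)))
      (Finset.prod_ne_zero_iff.mpr fun k _ => (Q.prime k).ne_zero)
    have : NeZero N' := ⟨hN'0⟩
    have hqN : ¬ Q.q i ∣ N' := fun hd => by
      rcases (Q.prime i).dvd_mul.mp hd with hd | hd
      · exact Q.not_mem i (S.mem_badSet_of_dvd (Q.prime i) ((hd.trans hN).mul_right p))
      · obtain ⟨k, hk, hki⟩ := (Q.prime i).prime.exists_mem_finset_dvd hd
        exact his (Q.inj ((Nat.prime_dvd_prime_iff_eq (Q.prime i) (Q.prime k)).mp hki) ▸ hk)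
    have hprod : N * ∏ k ∈ insert i s, Q.q k = N' * Q.q i := by
      rw [hN', Finset.prod_insert his]; ring
    rw [hprod, Finset.card_insert_of_notMem his, pow_succ']
    refine le_trans (finrank_eigenPart_mul_le S.R (fun l hl hlS P hP φ hφ =>
      S.residue_lift hl (fun h => hlS (Finset.mem_union_left _ h)) P hP φ hφ) hp2
      (Q.prime i)
      (fun e => Q.not_mem i (S.mem_badSet_of_dvd (Q.prime i) (dvd_mul_of_dvd_right e.dvd _))) hqN
      (fun h => (hell h).imp fun s hs => ⟨hs.1, hs.2.1.mul_right _, hs.2.2⟩)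
      (fun l hl hd => Q.mem_badSet_of_part hN (insert i s) hl (by rwa [hprod]))
      (fun P hP φ hφ => Q.trace_sq_ne i P hP φ hφ)) ?_
    rw [mul_assoc]
    exact Nat.mul_le_mul_left 2 ih

/-- no eigenvectors without one of the primes of the minimal level -/
theorem eigenPart_div_eq_bot (hp2 : p ≠ 2) {v : ℕ} (hv : v.Prime)
    (hvM : v ∣ S.M) :
    eigenPart (ResidueField O) (1 : DirichletCharacter (ResidueField O) (Q.level / v)) Q.badSet
      (residue O ∘ S.lift) = ⊥ := by
  classical
  set N := S.M / v * S.E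
  have hN : N ∣ S.M * S.E := Nat.mul_dvd_mul_right (Nat.div_dvd_of_dvd hvM) _
  have hN0 : N ≠ 0 := fun e => S.level_ne_zero (zero_dvd_iff.mp (e ▸ hN))
  have : NeZero N := ⟨hN0⟩
  have hlev : Q.level / v = N * ∏ i, Q.q i := by
    rw [level, mul_assoc, Nat.mul_div_right_comm hvM, ← mul_assoc]
  rw [hlev]
  have : NeZero (N * ∏ i, Q.q i) :=
    ⟨mul_ne_zero hN0 (Finset.prod_ne_zero_iff.mpr fun i _ => (Q.prime i).ne_zero)⟩
  have := Q.finite_resEigen (L := N * ∏ i, Q.q i) fun l hl hd =>
    Q.mem_badSet_of_part hN Finset.univ hl (hd.mul_right p)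
  have hzero : Q.resEigen N = ⊥ := eigenPart_eq_bot_of_not_residual S.R
    (fun l hl hlS P hP φ hφ =>
      S.residue_lift hl (fun h => hlS (Finset.mem_union_left _ h)) P hP φ hφ)
    hp2 (S.hell _)
    (fun l hl hd => Q.mem_badSet_of_part hN ∅ hl (by rwa [Finset.prod_empty, mul_one]))
    S.trace_good (S.minimal v hv hvM)
  have h := Q.finrank_resEigen_le hp2 hN (S.hell _) Finset.univ
  rw [hzero, finrank_bot, mul_zero] at h
  exact Submodule.finrank_eq_zero.mp (Nat.le_zero.mp h)

end TWData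

/-- the eigenpart at the top level is nonzero and of bounded rank -/
theorem LowerSetup.exists_rank_bound (S : LowerSetup p W O) (hp2 : p ≠ 2)
    (r : ℕ) :
    ∃ D : ℕ, ∀ n (Q : TWData S r n),
      0 < Module.finrank (ResidueField O) (eigenPart (ResidueField O)
          (1 : DirichletCharacter (ResidueField O) Q.level) Q.badSet (residue O ∘ S.lift)) ∧
      Module.finrank (ResidueField O) (eigenPart (ResidueField O)
          (1 : DirichletCharacter (ResidueField O) Q.level) Q.badSet (residue O ∘ S.lift)) ≤ D := by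
  classical
  have : NeZero (S.M * S.E) := ⟨S.level_ne_zero⟩
  have := finite_symbChar (R := ResidueField O)
    (1 : DirichletCharacter (ResidueField O) (S.M * S.E))
  refine ⟨2 ^ r * Module.finrank (ResidueField O)
    (SymbChar (ResidueField O) (1 : DirichletCharacter (ResidueField O) (S.M * S.E))),
    fun n Q => ?_⟩
  have : NeZero Q.level := ⟨mul_ne_zero S.level_ne_zero
    (Finset.prod_ne_zero_iff.mpr fun i _ => (Q.prime i).ne_zero)⟩
  have hQ : ∀ l, l.Prime → l ∣ Q.level → l ∈ Q.badSet := fun l hl hd =>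
    Q.mem_badSet_of_part dvd_rfl Finset.univ hl (hd.mul_right p)
  refine ⟨?_, ?_⟩
  · have := Q.finite_resEigen hQ
    obtain ⟨Φ, hΦ, hΦ0⟩ := S.exists_bottom_symbol (L := Q.level) (dvd_mul_right _ _) Q.badSet
      Finset.subset_union_left hQ
    exact Module.finrank_pos_iff_exists_ne_zero.mpr
      ⟨⟨Φ, hΦ⟩, fun h0 => hΦ0 (congrArg Subtype.val h0)⟩
  · refine (Q.finrank_resEigen_le hp2 dvd_rfl (S.hell _) Finset.univ).trans ?_
    rw [Finset.card_univ, Fintype.card_fin]
    exact Nat.mul_le_mul_left _ (Submodule.finrank_mono fun Φ hΦ =>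
      ((mem_eigenPart_iff fun l hl hd => Q.mem_badSet_of_part dvd_rfl ∅ hl
        (by rw [Finset.prod_empty, mul_one]; exact hd.mul_right p)).mp hΦ).1)

end FLTAgent.LevelLowering

end
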