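import Fermat.Agent.LevelLowering.Core.Datum
import Fermat.Agent.LevelLowering.Core.Bottom
import Fermat.Agent.LevelLowering.PatchContradiction
import Fermat.Agent.TWPrimes.Flat.Main

/-!
# There is no minimal counterexample to level lowering

The eigenparts at the levels of Taylor–Wiles primes have bounded rank, so one rank occurs at
infinitely many depths; the patching data of these levels contradict each other.  The result
is `lowerCore`.
-/

set_option autoImplicit false

noncomputable section

open IsLocalRing WeierstrassCurve Polynomial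

namespace FLTAgent.LevelLowering

open FLTAgent.DefRing FLTAgent.ModularityLifting FLTAgent.GaloisAttach FLTAgent.HeckePoints

/-- **The core of level lowering**, from the local theory of newforms and global duality. -/
theorem lowerCore (p : ℕ) [Fact p.Prime] (hp2 : p ≠ 2) : LowerCore p := by
  classical
  intro W O _ _ _ _ _ _ _ S
  obtain ⟨r, hr⟩ := S.exists_twData hp2 fun ρ hρ hdet V hV =>
    TWPrimes.classDim_le_of_flat p hp2 ρ hρ hdet V hV
  obtain ⟨D, hD⟩ := S.exists_rank_bound hp2 r
  obtain ⟨lam, hlamI⟩ := IsDiscreteValuationRing.exists_irreducible O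
  have hlam : maximalIdeal O = Ideal.span {lam} :=
    ((IsDiscreteValuationRing.irreducible_iff_uniformizer lam).mp hlamI)
  have h2 : IsUnit (2 : O) := by
    by_contra h
    have h0 : residue O 2 = 0 := (residue_eq_zero_iff _).mpr h
    rw [map_ofNat] at h0
    refine hp2 ((CharP.eq (ResidueField O) inferInstance ?_))
    exact (CharP.charP_iff_prime_eq_zero Nat.prime_two).mpr (by exact_mod_cast h0)
  obtain ⟨u, hu'⟩ := h2.exists_right_inv
  have hu : 2 * u = 1 := hu'
  -- a rank occurring at infinitely many depths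
  let Q : ∀ n, TWData S r n := fun n => (hr n).some
  have hB : ∀ n, ∃ (d : ℕ) (B : ∀ tw : Bool, EigenBasis ((Q n).delta tw) (Q n).badSet (Q n).aA d),
      0 < d ∧ d ≤ D ∧
      ∀ i x y, (B true).b i x y - (B false).b i x y ∈
        Ideal.span {algebraMap O (Q n).Coef lam} := fun n => by
    obtain ⟨d, B, hd, hcong⟩ := (Q n).exists_basis_pair hp2
      (fun l hl hlS P hP φ hφ => S.residue_lift hl hlS P hP φ hφ) hlam
    exact ⟨d, B, hd ▸ (hD n (Q n)).1, hd ▸ (hD n (Q n)).2, hcong⟩
  choose d B hd0 hdD hcong using hB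
  obtain ⟨⟨d₀, hd₀⟩, hinf⟩ := Finite.exists_infinite_fiber fun n => (⟨d n, by
    have := hdD n; omega⟩ : Fin (D + 1))
  have hbig : ∀ m, ∃ n, m ≤ n ∧ d n = d₀ := fun m => by
    rw [Set.infinite_coe_iff] at hinf
    obtain ⟨n, hn, hmn⟩ := hinf.exists_gt m
    exact ⟨n, hmn.le, congrArg Fin.val hn⟩
  obtain ⟨n₀, -, hn₀⟩ := hbig 0
  have hd₀' : 0 < d₀ := hn₀ ▸ hd0 n₀
  let := Fintype.ofFinite (PVar {v // v ∈ S.scalarSites} {v // v ∈ S.otherSites}
    (Fin (r - (3 * S.scalarSites.card + S.otherSites.card))))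
  have hlev : ∀ m, 3 * S.scalarSites.card + S.otherSites.card ≤ r ∧
      ∃ Dm : PatchData r d₀ {v // v ∈ S.scalarSites} {v // v ∈ S.otherSites}
        (Fin (r - (3 * S.scalarSites.card + S.otherSites.card))) (PLevel O r m),
        Dm.Valid (levelParams lam d₀ (S.siteF u) (S.siteC u)) := fun m => by
    obtain ⟨n, hmn, hn⟩ := hbig m
    subst hn
    exact (Q n).exists_valid (B n) hp2 (hd0 n) hlam hu (hcong n) (by omega)
  have hf : ∀ i, ((S.siteF u i) ^ d₀).Monic ∧ ((S.siteF u i) ^ d₀).coeff 0 ≠ 0 ∧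
      ∀ k, k < ((S.siteF u i) ^ d₀).natDegree → lam ∣ ((S.siteF u i) ^ d₀).coeff k := fun i => by
    obtain ⟨hm, h0, hdvd, -⟩ := S.site_params hp2 hlam hu i
    refine ⟨hm.pow d₀, ?_, fun k hk => ?_⟩
    · rw [coeff_zero_eq_eval_zero, eval_pow, ← coeff_zero_eq_eval_zero]
      exact pow_ne_zero _ h0
    · rw [← Ideal.mem_span_singleton, ← Ideal.Quotient.eq_zero_iff_mem, ← coeff_map,
        Polynomial.map_pow]
      have hmap : (S.siteF u i).map (Ideal.Quotient.mk (Ideal.span {lam})) =
          X ^ (S.siteF u i).natDegree := by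
        ext k
        rw [coeff_map, coeff_X_pow]
        split_ifs with h
        · rw [h, hm.coeff_natDegree, map_one]
        · rcases lt_or_gt_of_ne h with h | h
          · exact Ideal.Quotient.eq_zero_iff_mem.mpr (Ideal.mem_span_singleton.mpr (hdvd k h))
          · rw [coeff_eq_zero_of_natDegree_lt h, map_zero]
      rw [hmap, ← pow_mul, coeff_X_pow, if_neg]
      rw [hm.natDegree_pow, mul_comm] at hk
      omega
  refine false_of_forall_level (r := r) hd₀' (levelParams lam d₀ (S.siteF u) (S.siteC u))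
    hlam h2 (fun i => (hf i).1) (fun i => (hf i).2.1) (fun i => (hf i).2.2)
    (fun i => (S.site_params hp2 hlam hu i).2.2.2) (fun _ => neg_ne_zero.mpr one_ne_zero) ?_ ?_
    fun m => (hlev m).2
  · have hq : S.q ∈ S.sites := Finset.mem_filter.mpr
      ⟨Nat.mem_primeFactors.mpr ⟨S.q_prime, S.q_dvd, S.sqfree.ne_zero⟩, S.q_ne, S.q_unr⟩
    rcases S.loc_cover S.q (S.mem_sites hq).2.2.2.2 with h | h | h | h
    · exact Or.inl ⟨⟨S.q, h⟩⟩
    · exact Or.inr ⟨⟨S.q, h⟩⟩
    · exact absurd S.q_unr (Finset.mem_filter.mp h).2.2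
    · exact absurd h S.q_ne
  · rw [Nat.card_eq_finsetCard, Nat.card_eq_finsetCard, Nat.card_fin]
    have := (hlev 0).1
    omega

end FLTAgent.LevelLowering

end
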