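import Fermat.Agent.LevelLowering.Core.Levels
import Fermat.Agent.ModularityLifting.PointsDatum.Residual
import Mathlib.LinearAlgebra.Dimension.Basic

/-!
# Congruent bases of the eigenparts of the two sides

The nebentypes of both sides are residually trivial and congruent modulo a uniformiser
(`delta_congr`), so lifting the images of a basis of one side gives a basis of the other side
congruent to it (`exists_basis_pair`).  These are the modules of the patching data.
-/

set_option autoImplicit false

noncomputable section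

open IsLocalRing Matrix WeierstrassCurve

namespace FLTAgent.LevelLowering

open FLTAgent.Density (GalQ Qbar)
open FLTAgent.DefRing FLTAgent.ModularityLifting FLTAgent.GaloisAttach FLTAgent.HeckePoints
  FLTAgent.LevelRaising

/-- An element killed by a power of `p` is residually one. -/
theorem residue_eq_one_of_pow {A : Type} [CommRing A] [IsLocalRing A] {p : ℕ} [Fact p.Prime]
    [CharP (ResidueField A) p] {u : A} {k : ℕ} (hu : u ^ p ^ k = 1) : residue A u = 1 :=
  iterateFrobenius_inj (ResidueField A) p k (by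
    rw [iterateFrobenius_def, iterateFrobenius_def, one_pow, ← map_pow, hu, map_one])

/-- The dimension of an eigenpart does not depend on the name of the field. -/
theorem finrank_eigenPart_of_bijective {k k' : Type} [Field k] [Field k'] (ι : k →+* k')
    (hι : Function.Bijective ι) {L : ℕ} (δ : DirichletCharacter k L) {S : Finset ℕ}
    (hS : ∀ q, q.Prime → q ∣ L → q ∈ S) (a : ℕ → k) :
    Module.finrank k' (eigenPart k' (δ.ringHomComp ι) S (ι ∘ a)) =
      Module.finrank k (eigenPart k δ S a) := by
  let e := RingEquiv.ofBijective ι hι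
  have he : e.symm.toRingHom.comp ι = RingHom.id k := RingHom.ext fun x => e.symm_apply_apply x
  have : IsLocalHom e.symm.toRingHom := ⟨fun a ha => by
    have h := ha.map e.toRingHom
    change IsUnit (e (e.symm a)) at h
    rwa [e.apply_symm_apply] at h⟩
  have : IsLocalHom ι := ⟨fun a ha => by
    have h := ha.map e.symm.toRingHom
    change IsUnit (e.symm (e a)) at h
    rwa [e.symm_apply_apply] at h⟩
  have hback : ∀ Φ ∈ eigenPart k' (δ.ringHomComp ι) S (ι ∘ a),
      mapVal e.symm.toRingHom Φ ∈ eigenPart k δ S a := fun Φ hΦ => by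
    have h := PointsDatum.mapVal_mem_eigenPart_of_isLocalHom e.symm.toRingHom hS hΦ
    rwa [show (δ.ringHomComp ι).ringHomComp e.symm.toRingHom = δ from
        MulChar.ext fun u => e.symm_apply_apply (δ u),
      show e.symm.toRingHom ∘ (ι ∘ a) = a from funext fun l => e.symm_apply_apply (a l)] at h
  let j : eigenPart k δ S a ≃+ eigenPart k' (δ.ringHomComp ι) S (ι ∘ a) :=
    { toFun := fun Φ => ⟨mapVal ι Φ.1, PointsDatum.mapVal_mem_eigenPart_of_isLocalHom ι hS Φ.2⟩
      invFun := fun Φ => ⟨mapVal e.symm.toRingHom Φ.1, hback _ Φ.2⟩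
      left_inv := fun Φ => Subtype.ext (funext fun x => funext fun y => e.symm_apply_apply _)
      right_inv := fun Φ => Subtype.ext (funext fun x => funext fun y => e.apply_symm_apply _)
      map_add' := fun Φ Ψ => Subtype.ext (mapVal_add ι Φ.1 Ψ.1) }
  have h := rank_eq_of_equiv_equiv ι j hι fun c Φ => Subtype.ext (mapVal_smul ι c Φ.1)
  exact (congrArg Cardinal.toNat h).symm

variable {p : ℕ} [Fact p.Prime] {W : WeierstrassCurve ℤ} {O : Type} [CommRing O] [IsDomain O]
  [IsDiscreteValuationRing O] [IsAdicComplete (maximalIdeal O) O] [Finite (ResidueField O)]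
  [CharP (ResidueField O) p] {S : LowerSetup p W O} {r n : ℕ} (Q : TWData S r n)

namespace TWData

instance isLocalRing_coef : IsLocalRing Q.Coef :=
  isLocalRing_levelAlg ((residue_eq_zero_iff _).mp (by rw [map_natCast, CharP.cast_eq_zero]))

instance charP_coef : CharP (ResidueField Q.Coef) p :=
  haveI : IsLocalRing (LevelAlg O r (p ^ (n + 1))) := Q.isLocalRing_coef
  charP_residueField_levelAlg ((residue_eq_zero_iff _).mp (by rw [map_natCast, CharP.cast_eq_zero]))

instance finite_residue_coef : Finite (ResidueField Q.Coef) :=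
  haveI : IsLocalRing (LevelAlg O r (p ^ (n + 1))) := Q.isLocalRing_coef
  finite_residueField_levelAlg

instance isAdicComplete_coef : IsAdicComplete (maximalIdeal Q.Coef) Q.Coef :=
  haveI : IsLocalRing (LevelAlg O r (p ^ (n + 1))) := Q.isLocalRing_coef
  isAdicComplete_levelAlg

instance isLocalHom_coef : IsLocalHom (algebraMap O Q.Coef) := isLocalHom_levelAlg

instance isNoetherian_coef : IsNoetherianRing Q.Coef :=
  IsNoetherianRing.of_finite O Q.Coef

omit [IsAdicComplete (maximalIdeal O) O] [Finite (ResidueField O)] [CharP (ResidueField O) p]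
  [Fact (Nat.Prime p)] in
theorem exists_unitVal_pow (tw : Bool) (t : ℕ) : ∃ k, Q.unitVal tw t ^ p ^ k = 1 := by
  classical
  by_cases h : ∃ i, Q.q i = t
  · obtain ⟨i, rfl⟩ := h
    refine ⟨n + 1, ?_⟩
    rw [unitVal_q, ← map_pow, show levelGen r (p ^ (n + 1)) i ^ p ^ (n + 1) = 1 from
      Multiplicative.toAdd.injective (by ext; simp), map_one]
  · refine ⟨(t - 1).factorization p, ?_⟩
    rw [Q.unitVal_of_ne tw fun i hi => h ⟨i, hi⟩, ← map_pow]
    by_cases ht : t ∈ S.sites
    · cases tw
      · simp only [Bool.false_eq_true, if_false, one_pow, map_one]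
      · simp only [if_true, (S.siteRoot_spec ht).pow_eq_one, map_one]
    · simp only [S.siteRoot_of_notMem ht, ite_self, one_pow, map_one]

omit [IsAdicComplete (maximalIdeal O) O] [Finite (ResidueField O)] in
theorem residue_chi (tw : Bool) {t : ℕ} (ht : t.Prime) {x : ZMod t} (hx : IsUnit x) :
    residue Q.Coef (Q.chi tw t x) = 1 := by
  have : Fact t.Prime := ⟨ht⟩
  obtain ⟨k, -, hk⟩ := primeChar_apply_unit (Q.unitVal_pow_sub_one tw t) hx.unit
  rw [← hx.unit_spec]
  obtain ⟨m, hm⟩ := Q.exists_unitVal_pow tw t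
  rw [chi, hk, map_pow, residue_eq_one_of_pow hm, one_pow]

omit [IsAdicComplete (maximalIdeal O) O] [Finite (ResidueField O)] in
theorem delta_residue (tw : Bool) : (Q.delta tw).ringHomComp (residue Q.Coef) = 1 := by
  refine MulChar.ext fun u => ?_
  obtain ⟨d, hd⟩ := ZMod.intCast_surjective (u : ZMod Q.level)
  have hu : IsUnit (d : ZMod Q.level) := hd.symm ▸ u.isUnit
  rw [MulChar.one_apply_coe, MulChar.ringHomComp_apply, ← hd, Q.delta_apply tw hu, map_prod]
  refine Finset.prod_eq_one fun t ht => ?_
  obtain ⟨htp, htL, -⟩ := Nat.mem_primeFactors.mp ht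
  have h2 := hu.map (ZMod.castHom htL (ZMod t))
  rw [map_intCast] at h2
  rw [map_pow, Q.residue_chi tw htp h2, one_pow]

omit [IsAdicComplete (maximalIdeal O) O] [Finite (ResidueField O)] [CharP (ResidueField O) p] in
theorem exists_delta_pow (tw : Bool) (u : (ZMod Q.level)ˣ) : ∃ k, Q.delta tw u ^ p ^ k = 1 := by
  classical
  choose m hm using Q.exists_unitVal_pow tw
  refine ⟨Q.level.primeFactors.sup m, ?_⟩
  obtain ⟨d, hd⟩ := ZMod.intCast_surjective (u : ZMod Q.level)
  have hu : IsUnit (d : ZMod Q.level) := hd.symm ▸ u.isUnit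
  rw [← hd, Q.delta_apply tw hu, ← Finset.prod_pow]
  refine Finset.prod_eq_one fun t ht => ?_
  have h2 := hu.map (ZMod.castHom (Nat.dvd_of_mem_primeFactors ht) (ZMod t))
  rw [map_intCast] at h2
  have h1 : Q.chi tw t ^ p ^ Q.level.primeFactors.sup m = 1 := by
    obtain ⟨c, hc⟩ := Nat.exists_eq_add_of_le (Finset.le_sup (f := m) ht)
    rw [hc, pow_add p (m t) c, pow_mul,
      show Q.chi tw t ^ p ^ m t = 1 from primeChar_pow_eq_one (hm t), one_pow]
  rw [← pow_mul, mul_comm, pow_mul, ← MulChar.pow_apply' _ (pow_ne_zero _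
    (Fact.out : p.Prime).ne_zero), h1, MulChar.one_apply h2, one_pow]

omit [IsAdicComplete (maximalIdeal O) O] [Finite (ResidueField O)] in
theorem unitVal_congr {lam : O} (hlam : maximalIdeal O = Ideal.span {lam}) {A' : Type} [CommRing A']
    (φ : Q.Coef →+* A') (hφ : φ (algebraMap O Q.Coef lam) = 0) (t : ℕ) :
    φ (Q.unitVal true t) = φ (Q.unitVal false t) := by
  by_cases h : ∃ i, Q.q i = t
  · obtain ⟨i, rfl⟩ := h
    rw [unitVal_q, unitVal_q]
  · rw [Q.unitVal_of_ne true fun i hi => h ⟨i, hi⟩, Q.unitVal_of_ne false fun i hi => h ⟨i, hi⟩]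
    simp only [Bool.false_eq_true, if_false, if_true, map_one]
    have h1 : S.siteRoot t - 1 ∈ maximalIdeal O := by
      rw [← residue_eq_zero_iff, map_sub, map_one, sub_eq_zero]
      by_cases ht : t ∈ S.sites
      · exact residue_eq_one_of_pow (S.siteRoot_spec ht).pow_eq_one
      · rw [S.siteRoot_of_notMem ht, map_one]
    rw [hlam, Ideal.mem_span_singleton'] at h1
    obtain ⟨c, hc⟩ := h1
    rw [← sub_eq_zero, ← map_one φ, ← map_one (algebraMap O Q.Coef), ← map_sub, ← map_sub, ← hc,
      map_mul, map_mul, hφ, mul_zero]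

omit [IsAdicComplete (maximalIdeal O) O] [Finite (ResidueField O)] in
/-- The two nebentypes are congruent modulo a uniformiser. -/
theorem delta_congr {lam : O} (hlam : maximalIdeal O = Ideal.span {lam}) {A' : Type} [CommRing A']
    (φ : Q.Coef →+* A') (hφ : φ (algebraMap O Q.Coef lam) = 0) :
    (Q.delta true).ringHomComp φ = (Q.delta false).ringHomComp φ := by
  have hval := Q.unitVal_congr hlam φ hφ
  refine MulChar.ext fun u => ?_
  obtain ⟨d, hd⟩ := ZMod.intCast_surjective (u : ZMod Q.level)
  have hu : IsUnit (d : ZMod Q.level) := hd.symm ▸ u.isUnit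
  rw [MulChar.ringHomComp_apply, MulChar.ringHomComp_apply, ← hd, Q.delta_apply true hu,
    Q.delta_apply false hu, map_prod, map_prod]
  refine Finset.prod_congr rfl fun t ht => ?_
  rw [map_pow, map_pow, ← MulChar.ringHomComp_apply, ← MulChar.ringHomComp_apply, chi, chi,
    map_primeChar φ (Q.unitVal_pow_sub_one _ _), map_primeChar φ (Q.unitVal_pow_sub_one _ _), hval]

/-- The system of residual eigenvalues. -/
def aA (Q : TWData S r n) : ℕ → Q.Coef := fun l => algebraMap O Q.Coef (S.lift l)

omit [Fact p.Prime] [IsAdicComplete (maximalIdeal O) O] [Finite (ResidueField O)]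
  [CharP (ResidueField O) p] in
theorem level_ne_zero : Q.level ≠ 0 := by
  refine mul_ne_zero (mul_ne_zero S.sqfree.ne_zero ?_)
    (Finset.prod_ne_zero_iff.mpr fun i _ => (Q.prime i).ne_zero)
  by_cases h : p = 3
  · exact (S.E_three h).1.ne_zero
  · rw [S.E_eq h]; exact one_ne_zero

omit [IsAdicComplete (maximalIdeal O) O] [Finite (ResidueField O)]
  [CharP (ResidueField O) p] in
theorem mem_badSet_of_dvd {l : ℕ} (hl : l.Prime) (h : l ∣ Q.level * p) : l ∈ Q.badSet := by
  classical
  have : NeZero Q.level := ⟨Q.level_ne_zero⟩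
  have hME : S.M * S.E ≠ 0 := fun h0 => Q.level_ne_zero (by rw [level, h0, zero_mul])
  rw [badSet, Finset.mem_union]
  have hp : (l ∣ S.M * S.E * p) → l ∈ S.badSet := fun hd => Finset.mem_union_left _
    (Nat.mem_primeFactors.mpr ⟨hl, hd, mul_ne_zero hME (Fact.out : p.Prime).ne_zero⟩)
  rcases hl.dvd_mul.mp h with h | h
  · rw [level] at h
    rcases hl.dvd_mul.mp h with h | h
    · exact Or.inl (hp (h.mul_right p))
    · obtain ⟨i, -, hi⟩ := hl.prime.exists_mem_finset_dvd h
      exact Or.inr (Finset.mem_image.mpr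
        ⟨i, Finset.mem_univ i, ((Nat.prime_dvd_prime_iff_eq hl (Q.prime i)).mp hi).symm⟩)
  · exact Or.inl (hp (h.mul_left _))

variable [CharZero O]

omit [CharZero O] in
/-- **Congruent bases of the two sides.** -/
theorem exists_basis_pair (hp2 : p ≠ 2)
    (hlift : ∀ l, l.Prime → l ∉ S.badSet → ∀ P : ValuationSubring Qbar, P.LiesOverPrime l →
      ∀ φ, P.IsFrobeniusAt φ l → residue O (S.lift l) = (S.R.rep φ).trace)
    {lam : O} (hlam : maximalIdeal O = Ideal.span {lam}) :
    ∃ (d : ℕ) (B : ∀ tw : Bool, EigenBasis (Q.delta tw) Q.badSet Q.aA d),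
      d = Module.finrank (ResidueField O) (eigenPart (ResidueField O)
          (1 : DirichletCharacter (ResidueField O) Q.level) Q.badSet (residue O ∘ S.lift)) ∧
      ∀ i x y, (B true).b i x y - (B false).b i x y ∈ Ideal.span {algebraMap O Q.Coef lam} := by
  classical
  have : NeZero Q.level := ⟨Q.level_ne_zero⟩
  have hS : ∀ l, l.Prime → l ∣ Q.level * p → l ∈ Q.badSet := fun l hl h => Q.mem_badSet_of_dvd hl h
  have hSL : ∀ l, l.Prime → l ∣ Q.level → l ∈ Q.badSet := fun l hl h => hS l hl (h.mul_right p)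
  have hell : p = 3 → ∃ t, t.Prime ∧ t ∣ Q.level ∧ t % 3 = 2 := fun h3 =>
    ⟨S.E, (S.E_three h3).1, (dvd_mul_left S.E S.M).mul_right _, (S.E_three h3).2.1⟩
  set k := ResidueField O
  set kA := ResidueField Q.Coef
  let ι : k →+* kA := ResidueField.map (algebraMap O Q.Coef)
  have hι : Function.Bijective ι := by
    refine ⟨ι.injective, fun x => ?_⟩
    obtain ⟨x, rfl⟩ := residue_surjective x
    obtain ⟨o, ho⟩ : ∃ o, x - algebraMap O Q.Coef o ∈ maximalIdeal Q.Coef := by
      refine ⟨levelAug O r (p ^ (n + 1)) x, fun hu => ?_⟩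
      have h := hu.map (levelAug O r (p ^ (n + 1)))
      rw [map_sub, AlgHom.commutes, Algebra.algebraMap_self, RingHom.id_apply, sub_self] at h
      exact not_isUnit_zero h
    refine ⟨residue O o, (ResidueField.map_residue _ _).trans ?_⟩
    have h := (residue_eq_zero_iff _).mpr ho
    rw [map_sub, sub_eq_zero] at h
    exact h.symm
  have hne : ∃ ℓ, ℓ.Prime ∧ ℓ ∉ Q.badSet ∧ ℓ % Q.level = 1 % Q.level ∧
      residue Q.Coef (Q.aA ℓ) ≠ residue Q.Coef (1 + ℓ) := by
    obtain ⟨ℓ, hℓ, hℓS, hmod, h⟩ :=
      exists_ne_eisenstein (S := Q.badSet) (a := S.lift) (L := Q.level) S.R hp2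
      fun l hl hlS => hlift l hl fun h => hlS (Finset.mem_union_left _ h)
    refine ⟨ℓ, hℓ, hℓS, hmod, fun he => h (ι.injective ?_)⟩
    rw [show ι (residue O (S.lift ℓ)) = residue Q.Coef (Q.aA ℓ) from
      ResidueField.map_residue _ _, he]
    simp only [map_add, map_one, map_natCast]
  set d := Module.finrank kA (eigenPart kA ((Q.delta false).ringHomComp (residue Q.Coef)) Q.badSet
    (residue Q.Coef ∘ Q.aA)) with hd
  obtain ⟨B₀, hli⟩ : ∃ B : EigenBasis (Q.delta false) Q.badSet Q.aA d,
      LinearIndependent kA fun i => mapVal (residue Q.Coef) (B.b i) :=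
    (exists_eigenBasis_of_hell p (L := Q.level) (δ := Q.delta false) (a := Q.aA) hp2 hell
      (Q.exists_delta_pow false) hS hne).imp fun _ h => h.1
  have hdk : d = Module.finrank k (eigenPart k (1 : DirichletCharacter k Q.level) Q.badSet
      (residue O ∘ S.lift)) := by
    rw [hd, ← finrank_eigenPart_of_bijective ι hι 1 hSL, MulChar.ringHomComp_one, Q.delta_residue]
    rw [show ι ∘ (residue O ∘ S.lift) = residue Q.Coef ∘ Q.aA from
      funext fun l => ResidueField.map_residue _ _]
  -- lift modulo the uniformiser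
  set π := Ideal.Quotient.mk (Ideal.span {algebraMap O Q.Coef lam})
  have hπ : π (algebraMap O Q.Coef lam) = 0 :=
    Ideal.Quotient.eq_zero_iff_mem.mpr (Ideal.mem_span_singleton_self _)
  have hlamA : Ideal.span {algebraMap O Q.Coef lam} ≤ maximalIdeal Q.Coef :=
    (Ideal.span_singleton_le_iff_mem _).mpr (map_nonunit (algebraMap O Q.Coef) lam
      (by rw [hlam]; exact Ideal.mem_span_singleton_self lam))
  have : Nontrivial (Q.Coef ⧸ Ideal.span {algebraMap O Q.Coef lam}) :=
    Ideal.Quotient.nontrivial_iff.mpr (ne_top_of_le_ne_top (maximalIdeal.isMaximal _).ne_top hlamA)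
  have : IsLocalRing (Q.Coef ⧸ Ideal.span {algebraMap O Q.Coef lam}) :=
    .of_surjective' π Ideal.Quotient.mk_surjective
  obtain ⟨-, -, hbc⟩ := eigenPart_free_baseChange p hp2 (Q.delta true) (Q.exists_delta_pow true)
    hell Q.badSet hS Q.aA hne
  obtain ⟨hsurj, -⟩ := hbc _ π Ideal.Quotient.mk_surjective
  choose b hb hbπ using fun i => hsurj (mapVal π (B₀.b i)) (by
    rw [Q.delta_congr hlam π hπ]
    exact mapVal_mem_eigenPart π Ideal.Quotient.mk_surjective hSL (B₀.mem i))
  have hcong : ∀ i x y, b i x y - B₀.b i x y ∈ Ideal.span {algebraMap O Q.Coef lam} := fun i x y =>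
    Ideal.Quotient.eq.mp (congrFun (congrFun (hbπ i) x) y)
  have hres : (fun i => mapVal (residue Q.Coef) (b i)) =
      fun i => mapVal (residue Q.Coef) (B₀.b i) := funext fun i => funext fun x => funext fun y =>
    Ideal.Quotient.eq.mpr (hlamA (hcong i x y))
  have hspan : eigenPart kA ((Q.delta true).ringHomComp (residue Q.Coef)) Q.badSet
      (residue Q.Coef ∘ Q.aA) ≤
      Submodule.span kA (Set.range fun i => mapVal (residue Q.Coef) (b i)) := by
    rw [hres, Q.delta_residue, ← Q.delta_residue false]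
    set V := eigenPart kA ((Q.delta false).ringHomComp (residue Q.Coef)) Q.badSet
      (residue Q.Coef ∘ Q.aA)
    have := finite_symbChar (R := kA) ((Q.delta false).ringHomComp (residue Q.Coef))
    have : Module.Finite kA V := Module.Finite.of_injective
      (Submodule.inclusion (fun v hv => ((mem_eigenPart_iff hSL).mp hv).1 :
        V ≤ SymbChar kA ((Q.delta false).ringHomComp (residue Q.Coef))))
      (Submodule.inclusion_injective _)
    refine (Submodule.eq_of_le_of_finrank_le (Submodule.span_le.mpr ?_) ?_).ge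
    · rintro _ ⟨i, rfl⟩
      exact mapVal_mem_eigenPart _ residue_surjective hSL (B₀.mem i)
    · rw [finrank_span_eq_card hli, Fintype.card_fin]
  obtain ⟨B₁, rfl⟩ := exists_eigenBasis_of_residual hSL b hb (by rw [hres]; exact hli) hspan
  exact ⟨d, fun tw => match tw with | true => B₁ | false => B₀, hdk, hcong⟩

end TWData

end FLTAgent.LevelLowering
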