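import Fermat.Agent.LevelLowering.Core.Setup
import Fermat.Agent.LevelLowering.Level.Minimal
import Fermat.Agent.ModularityLifting.Start.Main

/-!
# The sets of primes of a minimal counterexample and its Taylor–Wiles data

Sorts the primes of the minimal level into sites and residually ramified primes, and defines
`TWData r n`: `r` auxiliary primes congruent to `1` modulo `p ^ (n + 1)` with the Selmer bound,
together with the resulting level.  Shared by all files of the core argument.
-/

set_option autoImplicit false

noncomputable section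

open IsLocalRing WeierstrassCurve
open scoped TrivSqZeroExt

namespace FLTAgent.LevelLowering

open FLTAgent.Density (GalQ Qbar)
open FLTAgent.DefRing FLTAgent.ModularityLifting FLTAgent.GaloisAttach

variable {p : ℕ} {W : WeierstrassCurve ℤ} {O : Type} [CommRing O] [IsDomain O]
  [IsDiscreteValuationRing O] (S : LowerSetup p W O)

namespace LowerSetup

/-- A lift of the residual traces at the chosen Frobenius elements. -/
def lift (ℓ : ℕ) : O :=
  Function.surjInv residue_surjective (S.R.rep (Start.frob ℓ)).trace

/-- The primes of the bottom level, `p`, and the primes of bad reduction. -/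
def badSet : Finset ℕ := (S.M * S.E * p).primeFactors ∪ Start.badPrimes W

/-- The primes of the minimal level. -/
def loc : Finset ℕ := S.M.primeFactors

open scoped Classical in
/-- The primes at which the level is to be lowered. -/
def sites : Finset ℕ := S.loc.filter fun v => v ≠ p ∧ UnramifiedAt S.R.rep v

open scoped Classical in
/-- The residually ramified primes. -/
def ramPrimes : Finset ℕ := S.loc.filter fun v => v ≠ p ∧ ¬ UnramifiedAt S.R.rep v

open scoped Classical in
/-- The sites where Frobenius is residually scalar. -/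
def scalarSites : Finset ℕ :=
  S.sites.filter fun v => ∃ c : ResidueField O, S.R.rep (Start.frob v) = c • 1

open scoped Classical in
/-- The sites where Frobenius is not residually scalar. -/
def otherSites : Finset ℕ :=
  S.sites.filter fun v => ¬ ∃ c : ResidueField O, S.R.rep (Start.frob v) = c • 1

end LowerSetup

/-- Taylor–Wiles primes of a minimal counterexample. -/
structure TWData (r n : ℕ) where
  /-- the primes -/
  q : Fin r → ℕ
  inj : Function.Injective q
  prime : ∀ i, (q i).Prime
  not_mem : ∀ i, q i ∉ S.badSet
  mod_pow : ∀ i, q i % p ^ (n + 1) = 1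
  distinct : ∀ i (P : ValuationSubring Qbar), P.LiesOverPrime (q i) →
    ∀ φ, P.IsFrobeniusAt φ (q i) → ∃ α β : ResidueField O,
      α ≠ β ∧ α + β = (S.R.rep φ).trace ∧ α * β = (S.R.rep φ).det
  bound : ∀ V : Submodule (ResidueField O) (AbsGal → Matrix (Fin 2) (Fin 2) (ResidueField O)),
    (∀ c ∈ V, IsAdCocycle S.R.rep c ∧
      (∀ ℓ, ℓ.Prime → ℓ ∉ S.loc → ℓ ≠ p → (∀ i, q i ≠ ℓ) →
        ∀ Q : ValuationSubring Qbar, Q.LiesOverPrime ℓ → ∀ σ ∈ Q.inertiaSubgroupIn ℚ, c σ = 0) ∧
      (∀ v ∈ S.loc, ∃ a, a.trace = 0 ∧ ∀ σ ∈ (Start.place v).decompositionSubgroup ℚ,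
        c σ = a - S.R.rep σ * a * S.R.rep σ⁻¹) ∧
      (p ∉ S.loc → ∀ M : MatRep (TrivSqZeroExt (ResidueField O) (ResidueField O)),
        (∀ σ i j, M σ i j = TrivSqZeroExt.inl (S.R.rep σ i j) +
          TrivSqZeroExt.inr ((c σ * S.R.rep σ) i j)) → FlatAt M p)) →
    Module.finrank (ResidueField O) (V.map (adCoboundaries S.R.rep).mkQ) +
      ∑ v ∈ S.loc, Module.finrank (ResidueField O) (adInvariants S.R.rep (Start.place v)) +
      (if p ∈ S.loc then 1 else 0) ≤ r

namespace TWData

variable {S} {r n : ℕ} (Q : TWData S r n)

/-- The level. -/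
def level : ℕ := S.M * S.E * ∏ i, Q.q i

/-- The primes excluded from the Hecke systems. -/
def badSet : Finset ℕ := S.badSet ∪ Finset.univ.image Q.q

end TWData

end FLTAgent.LevelLowering
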