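import Fermat.Agent.LevelLowering.Site.Newform
import Fermat.Agent.LevelLowering.Site.Principal
import Fermat.Agent.LevelLowering.SiteIdentities
import Fermat.Agent.ModularityLifting.Points.Galois

/-!
# The identities at a site at one point

At a site `v ≡ 1 (mod p)` with residually trivial inertia, the image of a tame generator and of
Frobenius commute and satisfy the site identities when inertia is not unipotent
(`site_identities`); at a Steinberg point the quadratic form of Frobenius is the constant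
`((v - 1)/2) ^ 2` (`qform_of_steinberg`).  These are the identities of the patching datum.
-/

set_option autoImplicit false

noncomputable section

open IsLocalRing Matrix Polynomial

namespace FLTAgent.LevelLowering

open FLTAgent.Density (GalQ Qbar)
open FLTAgent.DefRing FLTAgent.ModularityLifting FLTAgent.GaloisAttach FLTAgent.HeckePoints

variable {p : ℕ} [Fact p.Prime] {O C : Type} [CommRing O] [CommRing C] [IsLocalRing C]
  [IsAdicComplete (maximalIdeal C) C] [Algebra O C]

omit [IsAdicComplete (maximalIdeal C) C] in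
/-- Residually trivial inertia. -/
theorem sub_one_mem_of_residual {k : Type} [Field k] {R : MatRep k} (ι : k →+* ResidueField C)
    {ρ : MatRep C} (hρR : mapRep (residue C) ρ = mapRep ι R) {v : ℕ} (hR : UnramifiedAt R v)
    {P : ValuationSubring Qbar} (hP : P.LiesOverPrime v) {σ : GalQ}
    (hσ : σ ∈ P.inertiaSubgroupIn ℚ) (i k : Fin 2) : (ρ σ - 1) i k ∈ maximalIdeal C := by
  rw [← residue_eq_zero_iff]
  have h := congrFun (congrFun (DFunLike.congr_fun hρR σ) i) k
  rw [mapRep_eq_map, mapRep_eq_map, hR P hP σ hσ, Matrix.map_apply, Matrix.map_apply] at h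
  rw [Matrix.sub_apply, map_sub, h]
  by_cases hik : i = k <;> simp [Matrix.one_apply, hik]

/-- The value of `h` at a Steinberg point. -/
theorem qform_of_steinberg (hpC : (p : C) ∈ maximalIdeal C) {ρ : MatRep C}
    (hdet : ∀ σ, (ρ σ).det = cycChar hpC σ) {v : ℕ} (hv : v.Prime) (hvp : v ≠ p) {ε : ℤ}
    (hε : ε = 1 ∨ ε = -1) (hst : SteinbergAt ρ v (ε : C)) {u : O} (hu : 2 * u = 1)
    {P : ValuationSubring Qbar} (hP : P.LiesOverPrime v) {φ : GalQ} (hφ : P.IsFrobeniusAt φ v) :
    qform (coord (algebraMap O C u) (ρ φ)) =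
      algebraMap O C ((u * ((v : O) - 1)) * (u * ((v : O) - 1))) := by
  have hu' : 2 * algebraMap O C u = 1 := by
    rw [← map_ofNat (algebraMap O C), ← map_mul, hu, map_one]
  rw [qform_coord hu', (hst P hP).2 φ hφ, hdet, cycChar_frobenius hpC hv hvp hP hφ,
    map_mul, map_mul, map_sub, map_natCast, map_one]
  rcases hε with rfl | rfl
  · rw [Int.cast_one, one_mul]
    linear_combination ((v : C) * (2 * algebraMap O C u + 1)) * hu'
  · rw [Int.cast_neg, Int.cast_one]
    linear_combination ((v : C) * (2 * algebraMap O C u + 1)) * hu'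

variable [IsDomain C] [CharP (ResidueField C) p] [CharZero C]

omit [CharZero C] in
/-- **The identities at a point where inertia is not unipotent.** -/
theorem site_identities (hp2 : p ≠ 2) (hinj : Function.Injective (algebraMap O C))
    (hpC : (p : C) ∈ maximalIdeal C) {ρ : MatRep C} (hρ : MatCont ρ)
    (hdet : ∀ σ, (ρ σ).det = cycChar hpC σ) {k : Type} [Field k] {R : MatRep k}
    (ι : k →+* ResidueField C) (hρR : mapRep (residue C) ρ = mapRep ι R) {v : ℕ} (hv : v.Prime)
    (hvp : v ≠ p) (hv1 : v % p = 1) (hR : UnramifiedAt R v) {P : ValuationSubring Qbar}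
    (hP : P.LiesOverPrime v) {x : Qbar} (hx : x ^ p = (v : Qbar)) {τ : GalQ}
    (hτ : τ ∈ P.inertiaSubgroupIn ℚ) (hτx : τ x ≠ x) {φ : GalQ} (hφ : P.IsFrobeniusAt φ v)
    (hne : ∃ σ ∈ P.inertiaSubgroupIn ℚ, (ρ σ).trace ≠ 2) {u ζ : O} (hu : 2 * u = 1)
    (hζ : IsPrimitiveRoot ζ (p ^ (v - 1).factorization p)) :
    (∀ i k, coord (algebraMap O C u) (ρ φ) i * coord (algebraMap O C u) (ρ τ) k =
        coord (algebraMap O C u) (ρ φ) k * coord (algebraMap O C u) (ρ τ) i) ∧
      (sitePoly u ζ (p ^ (v - 1).factorization p)).eval₂ (algebraMap O C)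
        (qform (coord (algebraMap O C u) (ρ τ))) = 0 := by
  have hp : p.Prime := Fact.out
  have hres : ∀ σ ∈ P.inertiaSubgroupIn ℚ, ∀ i k, (ρ σ - 1) i k ∈ maximalIdeal C :=
    fun σ hσ => sub_one_mem_of_residual ι hρR hR hP hσ
  have hrel := (tame_relations hp hpC hv hvp hP hx hτ hτx ρ hρ fun σ hσ i k => by
    rw [Matrix.mul_apply]
    exact sum_mem fun m _ => Ideal.mul_mem_left _ _ (hres σ hσ m k)).2 φ hφ
  have hdτ : (ρ τ).det = 1 := by
    rw [hdet, cycChar_apply, cyc_inertia p hv hvp hP hτ, map_one]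
  have htr : (ρ τ).trace ≠ 2 := by
    obtain ⟨σ, hσ, h⟩ := hne
    exact fun ht => h (trace_eq_two_of_tame hp hpC hv hvp hP hx hτ hτx ρ hρ hres hdτ ht σ hσ)
  have hdvd : p ∣ v - 1 := by
    refine (Nat.modEq_iff_dvd' hv.one_le).mp ?_
    show 1 % p = v % p
    rw [hv1, Nat.one_mod_eq_one]
    exact hp.ne_one
  obtain ⟨h1, h2⟩ := principal_point (algebraMap O C) hinj hu hp hp2 (Nat.ordProj_dvd (v - 1) p)
    (Nat.pow_succ_factorization_not_dvd (by have := hv.two_le; omega) hp) hdvd hv.one_le hζ
    ((Group.isUnit φ).map ρ) (hres τ hτ) hdτ htr hrel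
  exact ⟨coord_cross h1, h2⟩

omit [IsAdicComplete (maximalIdeal C) C] [IsLocalRing C] [CharZero C] in
/-- Proportional coordinates. -/
theorem qform_of_proportional {A B : Fin 3 → C} {μ : C} {k : Fin 3} (hA : A k ≠ 0)
    (hμ : μ * A k = B k) (h : ∀ i l, A i * B l = A l * B i) :
    μ * μ * qform A = qform B := by
  have hB : ∀ i, B i = μ * A i := fun i => mul_left_cancel₀ hA (by
    rw [h k i, ← hμ]; ring)
  simp only [qform, hB]
  ring

end FLTAgent.LevelLowering
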