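import Fermat.Agent.LevelLowering.Core.Bases
import Fermat.Agent.LevelLowering.Core.Sites
import Fermat.Agent.LevelLowering.SitePoly

/-!
# Residual facts at the sites, the constants and the auxiliary elements

Membership in the sets of primes, the indexing of the site variables, and the polynomials `siteF`
and values `siteC` which serve as the constants of the patching system (`site_params`).  Used by
`LevelLowering.Core.Datum` and `LevelLowering.Core.Final`.
-/

set_option autoImplicit false

noncomputable section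

open IsLocalRing Matrix WeierstrassCurve Polynomial

namespace FLTAgent.LevelLowering

open FLTAgent.Density (GalQ Qbar)
open FLTAgent.DefRing FLTAgent.ModularityLifting FLTAgent.GaloisAttach FLTAgent.HeckePoints

variable {p : ℕ} {W : WeierstrassCurve ℤ} {O : Type} [CommRing O] [IsDomain O]
  [IsDiscreteValuationRing O]

namespace LowerSetup

variable (S : LowerSetup p W O)

theorem mem_loc {v : ℕ} (hv : v ∈ S.loc) : v.Prime ∧ v ∣ S.M :=
  ⟨(Nat.mem_primeFactors.mp hv).1, (Nat.mem_primeFactors.mp hv).2.1⟩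

theorem mem_sites {v : ℕ} (hv : v ∈ S.sites) :
    v.Prime ∧ v ≠ p ∧ v % p = 1 ∧ UnramifiedAt S.R.rep v ∧ v ∈ S.loc := by
  classical
  obtain ⟨hv, hvp, hun⟩ := Finset.mem_filter.mp hv
  exact ⟨(S.mem_loc hv).1, hvp, S.mod_one v (S.mem_loc hv).1 (S.mem_loc hv).2 hvp hun, hun, hv⟩

theorem mem_scalarSites {v : ℕ} (hv : v ∈ S.scalarSites) :
    v ∈ S.sites ∧ ∃ c : ResidueField O, S.R.rep (Start.frob v) = c • 1 := by
  classical
  exact Finset.mem_filter.mp hv

theorem mem_otherSites {v : ℕ} (hv : v ∈ S.otherSites) :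
    v ∈ S.sites ∧ ¬ ∃ c : ResidueField O, S.R.rep (Start.frob v) = c • 1 := by
  classical
  exact Finset.mem_filter.mp hv

theorem loc_cover :
    ∀ v ∈ S.loc, v ∈ S.scalarSites ∨ v ∈ S.otherSites ∨ v ∈ S.ramPrimes ∨ v = p := by
  classical
  intro v hv
  by_cases hvp : v = p
  · exact Or.inr (Or.inr (Or.inr hvp))
  by_cases hu : UnramifiedAt S.R.rep v
  · have hs : v ∈ S.sites := Finset.mem_filter.mpr ⟨hv, hvp, hu⟩
    by_cases hc : ∃ c : ResidueField O, S.R.rep (Start.frob v) = c • 1
    · exact Or.inl (Finset.mem_filter.mpr ⟨hs, hc⟩)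
    · exact Or.inr (Or.inl (Finset.mem_filter.mpr ⟨hs, hc⟩))
  · exact Or.inr (Or.inr (Or.inl (Finset.mem_filter.mpr ⟨hv, hvp, hu⟩)))

/-- The prime of a site variable. -/
def siteOf : {v // v ∈ S.scalarSites} ⊕ {v // v ∈ S.otherSites} → ℕ :=
  Sum.elim Subtype.val Subtype.val

theorem siteOf_mem (i) : S.siteOf i ∈ S.sites := by
  rcases i with ⟨v, hv⟩ | ⟨v, hv⟩
  · exact (S.mem_scalarSites hv).1
  · exact (S.mem_otherSites hv).1

/-- The polynomial of a site. -/
def siteF (u : O) (i : {v // v ∈ S.scalarSites} ⊕ {v // v ∈ S.otherSites}) : O[X] :=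
  sitePoly u (S.siteRoot (S.siteOf i)) (p ^ (S.siteOf i - 1).factorization p)

/-- The value of `h` at Steinberg points. -/
def siteC (u : O) (i : {v // v ∈ S.scalarSites} ⊕ {v // v ∈ S.otherSites}) : O :=
  (u * ((S.siteOf i : O) - 1)) * (u * ((S.siteOf i : O) - 1))

variable [Fact p.Prime] [CharP (ResidueField O) p]

omit [Fact p.Prime] in
theorem natCast_eq_one {v : ℕ} (hv : v % p = 1) : ((v : ℕ) : ResidueField O) = 1 := by
  rw [← Nat.mod_add_div v p, hv, Nat.cast_add, Nat.cast_mul, CharP.cast_eq_zero (ResidueField O) p,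
    zero_mul, add_zero, Nat.cast_one]

/-- The constants meet the requirements of the patching system. -/
theorem site_params (hp2 : p ≠ 2) {lam u : O} (hlam : maximalIdeal O = Ideal.span {lam})
    (hu : 2 * u = 1) (i) :
    (S.siteF u i).Monic ∧ (S.siteF u i).coeff 0 ≠ 0 ∧
      (∀ k, k < (S.siteF u i).natDegree → lam ∣ (S.siteF u i).coeff k) ∧ lam ∣ S.siteC u i := by
  have hζ := S.siteRoot_spec (S.siteOf_mem i)
  have hodd : Odd (p ^ (S.siteOf i - 1).factorization p) :=
    ((Fact.out : p.Prime).odd_of_ne_two hp2).pow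
  have hdvd : ∀ x : O, residue O x = 0 → lam ∣ x := fun x hx => by
    rw [← Ideal.mem_span_singleton, ← hlam, ← residue_eq_zero_iff, hx]
  refine ⟨sitePoly_monic _ _ _, sitePoly_coeff_zero_ne_zero hu hodd hζ,
    fun k hk => dvd_sitePoly_coeff (hdvd _ ?_) hk, hdvd _ ?_⟩
  · rw [map_sub, map_one, residue_eq_one_of_pow hζ.pow_eq_one, sub_self]
  · rw [siteC, map_mul, map_mul, map_sub, map_natCast, map_one,
      natCast_eq_one (S.mem_sites (S.siteOf_mem i)).2.2.1, sub_self, mul_zero, mul_zero]

omit [Fact (Nat.Prime p)] [CharP (ResidueField O) p] in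
/-- At a non-scalar Frobenius some coordinate is nonzero. -/
theorem exists_coord_ne_zero {u : O} (hu : 2 * u = 1) {v : ℕ} (hv : v ∈ S.otherSites) :
    ∃ k, coord (residue O u) (S.R.rep (Start.frob v)) k ≠ 0 := by
  by_contra h
  push Not at h
  refine (S.mem_otherSites hv).2 ⟨S.R.rep (Start.frob v) 0 0, ?_⟩
  have h0 := h 0
  have h1 := h 1
  have h2 := h 2
  simp only [coord, Matrix.cons_val_zero, Matrix.cons_val_one, Matrix.cons_val] at h0 h1 h2
  have hu0 : residue O u ≠ 0 := fun h0 => by
    have := congrArg (residue O) hu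
    rw [map_mul, h0, mul_zero, map_one] at this
    exact zero_ne_one this
  have h11 := sub_eq_zero.mp ((mul_eq_zero.mp h0).resolve_left hu0)
  ext a b
  fin_cases a <;> fin_cases b <;> simp [h1, h2, h11]

end LowerSetup

end FLTAgent.LevelLowering
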