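import Fermat.Agent.LevelLowering.Core.Family
import Fermat.Agent.LevelLowering.Core.SiteVars
import Fermat.Agent.LevelLowering.Level.Datum
import Fermat.Agent.LevelLowering.Tame
import Fermat.Agent.LevelLowering.Tangent.Generators

/-!
# The patching datum of a level

`exists_valid`: the Hecke algebra of both sides at the level of a Taylor–Wiles datum gives a valid
patching datum over `S / 𝔪ᵐ`, with the coordinates of the representation at the sites as
variables: `exists_siteVars` chooses them, `exists_valid_of_points` reduces the equations of a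
datum to identities at the points.  `LevelLowering.Core.Final` feeds these data to the patching
contradiction.
-/

set_option autoImplicit false

noncomputable section

open IsLocalRing Matrix WeierstrassCurve Polynomial
open scoped Pointwise

namespace FLTAgent.LevelLowering

open FLTAgent.Density (GalQ Qbar)
open FLTAgent.DefRing FLTAgent.ModularityLifting FLTAgent.GaloisAttach FLTAgent.HeckePoints
  FLTAgent.LevelRaising

/-- An element of inertia at the chosen place with a given cyclotomic value. -/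
theorem exists_inertia_place {t : ℕ} [Fact t.Prime] (u : (ZMod t)ˣ) :
    ∃ σ ∈ (Start.place t).inertiaSubgroupIn ℚ, ExtCitation.cycloChar t σ = u := by
  obtain ⟨A, σ, hA, hσ, h⟩ := PointsDatum.exists_inertia_cycloChar (r := t) u
  obtain ⟨g, rfl⟩ := Density.exists_smul_eq_of_liesOverPrime Fact.out
    (Start.place_spec t Fact.out) hA
  have h' := Density.mem_inertiaSubgroupIn_smul hσ g⁻¹
  simp only [inv_inv, inv_smul_smul] at h'
  exact ⟨_, h', by rw [map_mul, map_mul, map_inv, mul_comm (_⁻¹) _, inv_mul_cancel_right, h]⟩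

/-- An element of inertia at each prime `v` moving a `p`-th root of `v`. -/
private theorem exists_tame_choice {p : ℕ} (hp : p.Prime) : ∃ τ : ℕ → GalQ, ∀ v : ℕ, v.Prime →
    ∃ x : Qbar, x ^ p = (v : Qbar) ∧ τ v ∈ (Start.place v).inertiaSubgroupIn ℚ ∧ τ v x ≠ x := by
  refine Classical.axiom_of_choice (r := fun (v : ℕ) (t : GalQ) => v.Prime →
    ∃ x : Qbar, x ^ p = (v : Qbar) ∧ t ∈ (Start.place v).inertiaSubgroupIn ℚ ∧ t x ≠ x) fun v => ?_
  by_cases hv : v.Prime
  · obtain ⟨x, hx, τ, hτ, hτx⟩ := exists_tame_element hp hv (Start.place_spec v hv)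
    exact ⟨τ, fun _ => ⟨x, hx, hτ, hτx⟩⟩
  · exact ⟨1, fun h => absurd h hv⟩

/-- The variables of a level from the values `A`, `B` at the scalar sites, `h`, `μ` at the other
sites, and complementary elements `x`, padded by zeros. -/
private def siteVars {T : Type} [CommRing T] {AS AO : Finset ℕ} {g N : ℕ} (A B : ℕ → Fin 3 → T)
    (h μ : ℕ → T) (x : Fin g → T) : PVar {v // v ∈ AS} {v // v ∈ AO} (Fin N) → T
  | .vA a i => A a.1 i
  | .vB a i => B a.1 i
  | .vh b => h b.1
  | .vmu b => μ b.1
  | .vx k => if hk : (k : ℕ) < g then x ⟨k, hk⟩ else 0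

/-- The variables span the same ideal as the elements they are made of. -/
private theorem span_siteVars {T : Type} [CommRing T] {AS AO : Finset ℕ} {g N : ℕ} (hg : g ≤ N)
    (l : T) (A B : ℕ → Fin 3 → T) (h μ : ℕ → T) (x : Fin g → T) :
    Ideal.span ({l} ∪ {z | ∃ v ∈ AS, ∃ i, z = A v i ∨ z = B v i} ∪
        {z | ∃ v ∈ AO, z = h v ∨ z = μ v} ∪ Set.range x) =
      Ideal.span (insert l (Set.range (siteVars (AS := AS) (AO := AO) (N := N) A B h μ x))) := by
  refine le_antisymm (Ideal.span_mono ?_) (Ideal.span_le.mpr ?_)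
  · rintro y (((hy | ⟨v, hv, i, hy | hy⟩) | ⟨v, hv, hy | hy⟩) | ⟨i, rfl⟩)
    · exact Or.inl hy
    · exact Or.inr ⟨.vA ⟨v, hv⟩ i, hy.symm⟩
    · exact Or.inr ⟨.vB ⟨v, hv⟩ i, hy.symm⟩
    · exact Or.inr ⟨.vh ⟨v, hv⟩, hy.symm⟩
    · exact Or.inr ⟨.vmu ⟨v, hv⟩, hy.symm⟩
    · exact Or.inr ⟨.vx ⟨i, i.2.trans_le hg⟩, dif_pos i.2⟩
  · rintro y (rfl | ⟨v, rfl⟩)
    · exact Ideal.subset_span (Or.inl (Or.inl (Or.inl rfl)))
    cases v with
    | vA a i => exact Ideal.subset_span (Or.inl (Or.inl (Or.inr ⟨a.1, a.2, i, Or.inl rfl⟩)))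
    | vB a i => exact Ideal.subset_span (Or.inl (Or.inl (Or.inr ⟨a.1, a.2, i, Or.inr rfl⟩)))
    | vh b => exact Ideal.subset_span (Or.inl (Or.inr ⟨b.1, b.2, Or.inl rfl⟩))
    | vmu b => exact Ideal.subset_span (Or.inl (Or.inr ⟨b.1, b.2, Or.inr rfl⟩))
    | vx k =>
      simp only [siteVars]
      split
      · exact Ideal.subset_span (Or.inr ⟨_, rfl⟩)
      · exact zero_mem _

variable {p : ℕ} [Fact p.Prime] {W : WeierstrassCurve ℤ} {O : Type} [CommRing O] [IsDomain O]
  [IsDiscreteValuationRing O] [IsAdicComplete (maximalIdeal O) O] [Finite (ResidueField O)]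
  [CharP (ResidueField O) p] [CharZero O] {S : LowerSetup p W O} {r n : ℕ}
  {C : Type} [CommRing C] [IsDomain C] [IsDiscreteValuationRing C] [Algebra O C]
  [IsLocalHom (algebraMap O C)]

omit [IsAdicComplete (maximalIdeal O) O] [Finite (ResidueField O)] [CharZero O] in
/-- The coordinates of a lift reduce to those of the residual representation. -/
private theorem residue_coord_lift {ρ : MatRep C} {R : MatRep (ResidueField O)}
    (h : mapRep (residue C) ρ = mapRep (ResidueField.map (algebraMap O C)) R) (u : O) (σ : GalQ)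
    (i : Fin 3) : residue C (coord (algebraMap O C u) (ρ σ) i) =
      ResidueField.map (algebraMap O C) (coord (residue O u) (R σ) i) := by
  rw [coord_map (residue C), coord_map (ResidueField.map (algebraMap O C)),
    ResidueField.map_residue]
  congr 1
  exact DFunLike.congr_fun h σ

omit [IsAdicComplete (maximalIdeal O) O] [Finite (ResidueField O)] [CharZero O] in
/-- A family of values with a common nonzero reduction is a unit. -/
private theorem isUnit_of_residue [Module.Finite O C] {X : Type} [Finite X] {f : X → GalQ → C}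
    {b : trAlg O f} {a : ResidueField O} (ha : a ≠ 0)
    (h : ∀ z, residue C (evalPt (f := f) z b) = ResidueField.map (algebraMap O C) a) :
    IsUnit b := by
  obtain ⟨o, rfl⟩ := residue_surjective a
  refine isUnit_trAlg_of_unit ((residue_ne_zero_iff_isUnit o).mp ha) fun z => ?_
  rw [← residue_eq_zero_iff, map_sub, h, ResidueField.map_residue, sub_self]

variable [IsAdicComplete (maximalIdeal C) C] [Finite (ResidueField C)] [CharZero C]
  [Module.Finite O C] [CharP (ResidueField C) p]
  {hpO : (p : O) ∈ maximalIdeal O} {hpC : (p : C) ∈ maximalIdeal C}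

namespace TWData

variable (Q : TWData S r n) {d : ℕ} (B : ∀ tw : Bool, EigenBasis (Q.delta tw) Q.badSet Q.aA d)

omit [Fact p.Prime] [IsAdicComplete (maximalIdeal O) O] [Finite (ResidueField O)] [CharZero O]
  [IsAdicComplete (maximalIdeal C) C] [Finite (ResidueField C)] [CharZero C] [Module.Finite O C]
  [CharP (ResidueField C) p] in
/-- At a site, a representation which is Steinberg there has residual trace squared four. -/
private theorem sq_trace_frob {φ : Q.Coef →ₐ[O] C} {ρ : MatRep C}
    (h : Q.PointProps false φ ρ)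
    (hres : ∀ σ, residue C (ρ σ).trace = ResidueField.map (algebraMap O C) (S.R.rep σ).trace)
    {v : ℕ} (hv : v ∈ S.sites) : (S.R.rep (Start.frob v)).trace ^ 2 = 4 := by
  obtain ⟨hvP, -, hv1, -, -⟩ := S.mem_sites hv
  obtain ⟨ε, hε, hst⟩ := h.site rfl v hv
  have h' := (hst (Start.place v) (Start.place_spec v hvP)).2 _ (Start.frob_spec v hvP)
  refine (ResidueField.map (algebraMap O C)).injective ?_
  rw [map_pow, ← hres, h', map_mul, map_add, map_natCast, map_intCast, map_one,
    ← map_natCast (ResidueField.map (algebraMap O C)), LowerSetup.natCast_eq_one hv1, map_one,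
    map_ofNat]
  rcases hε with rfl | rfl <;> norm_num

omit [CharP (ResidueField C) p] in
/-- The variables of a level: coordinates of the representation at the sites and complements,
generating the maximal ideal over `lam`. -/
private theorem exists_siteVars (hp2 : p ≠ 2) {X : Type} [Finite X] [Nonempty X] {S' : Finset ℕ}
    {c : X → ℕ → C} {f : X → GalQ → C} [IsLocalRing (trAlg O f)]
    (hf : ∀ x, IsPointTrace hpC S' (c x) (f x))
    (hres : ∀ x g, residue C (f x g) = ResidueField.map (algebraMap O C) (S.R.rep g).trace)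
    {F : Frame (trVal O f) ((algebraMap O (trAlg O f)).toMonoidHom.comp (cycChar hpO))}
    (hγ : F.γ = complexConjugation) (hFr : F.r = S.R.r) (hαβ : F.α = 1 ∧ F.β = -1)
    {φ : X → Q.Coef →ₐ[O] C} {tw : X → Bool}
    (hpp : ∀ x, Q.PointProps (tw x) (φ x) (ptRep (isPseudoRep_family hf hpO) F x))
    (hfalse : ∃ x, tw x = false) {lam u : O} (hlam : maximalIdeal O = Ideal.span {lam})
    (hu : 2 * u = 1) :
    3 * S.scalarSites.card + S.otherSites.card ≤ r ∧
    ∃ (τ : ℕ → GalQ) (kc : ℕ → Fin 3) (V : PVar {v // v ∈ S.scalarSites} {v // v ∈ S.otherSites}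
        (Fin (r - (3 * S.scalarSites.card + S.otherSites.card))) → trAlg O f),
      (∀ v : ℕ, v.Prime → ∃ y : Qbar, y ^ p = (v : Qbar) ∧
        τ v ∈ (Start.place v).inertiaSubgroupIn ℚ ∧ τ v y ≠ y) ∧
      maximalIdeal (trAlg O f) =
        Ideal.span (insert (algebraMap O (trAlg O f) lam) (Set.range V)) ∧
      (∀ a i x, evalPt x (V (.vA a i)) = coord (algebraMap O C u)
        (ptRep (isPseudoRep_family hf hpO) F x (Start.frob a.1)) i) ∧
      (∀ a i x, evalPt x (V (.vB a i)) = coord (algebraMap O C u)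
        (ptRep (isPseudoRep_family hf hpO) F x (τ a.1)) i) ∧
      (∀ b x, evalPt x (V (.vh b)) = qform (coord (algebraMap O C u)
        (ptRep (isPseudoRep_family hf hpO) F x (Start.frob b.1)))) ∧
      (∀ b x, coord (algebraMap O C u)
          (ptRep (isPseudoRep_family hf hpO) F x (Start.frob b.1)) (kc b.1) ≠ 0 ∧
        evalPt x (V (.vmu b)) * coord (algebraMap O C u)
          (ptRep (isPseudoRep_family hf hpO) F x (Start.frob b.1)) (kc b.1) =
        coord (algebraMap O C u) (ptRep (isPseudoRep_family hf hpO) F x (τ b.1)) (kc b.1)) := by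
  classical
  set uR : trAlg O f := algebraMap O (trAlg O f) u
  set N : MatRep (trAlg O f) := F.rep (isPseudoRep_trVal (isPseudoRep_family hf hpO))
  set ρ : X → MatRep C := fun x => ptRep (isPseudoRep_family hf hpO) F x
  have hspec := fun x => ptRep_spec hf hpO S.R hres hγ hFr hαβ x
  have hcoord : ∀ x σ i, evalPt (f := f) x (coord uR (N σ) i) =
      coord (algebraMap O C u) (ρ x σ) i := fun x σ i => by
    rw [← AlgHom.commutes (evalPt (f := f) x) u]
    exact coord_map (evalPt (f := f) x).toRingHom uR (N σ) i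
  obtain ⟨τ, hτ⟩ := exists_tame_choice (Fact.out : p.Prime)
  obtain ⟨x₁, hx₁⟩ := hfalse
  obtain ⟨kc, hkc⟩ : ∃ kc : ℕ → Fin 3, ∀ v ∈ S.otherSites,
      coord (residue O u) (S.R.rep (Start.frob v)) (kc v) ≠ 0 :=
    ⟨fun v => if hv : v ∈ S.otherSites then (S.exists_coord_ne_zero hu hv).choose else 0,
      fun v hv => by simp only [dif_pos hv]; exact (S.exists_coord_ne_zero hu hv).choose_spec⟩
  have hrc : ∀ x v, residue C (evalPt (f := f) x (coord uR (N (Start.frob v)) (kc v))) =
      ResidueField.map (algebraMap O C) (coord (residue O u) (S.R.rep (Start.frob v)) (kc v)) :=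
    fun x v => by rw [hcoord]; exact residue_coord_lift (hspec x).2.2.2 u _ _
  have hunit : ∀ v ∈ S.otherSites, IsUnit (coord uR (N (Start.frob v)) (kc v)) :=
    fun v hv => isUnit_of_residue (hkc v hv) fun x => hrc x v
  let μ : ℕ → trAlg O f := fun v =>
    if hv : v ∈ S.otherSites then ↑(hunit v hv).unit⁻¹ * coord uR (N (τ v)) (kc v) else 0
  have hμ : ∀ v ∈ S.otherSites,
      μ v * coord uR (N (Start.frob v)) (kc v) = coord uR (N (τ v)) (kc v) := fun v hv => by
    simp only [μ, dif_pos hv]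
    rw [mul_right_comm, IsUnit.val_inv_mul, one_mul]
  have hsites : ∀ v, v ∈ S.scalarSites ∨ v ∈ S.otherSites → v ∈ S.sites := fun v hv =>
    hv.elim (fun h => (S.mem_scalarSites h).1) fun h => (S.mem_otherSites h).1
  obtain ⟨g, x, hg, hspan⟩ := exists_site_generators hp2 hpO S.R hf hres F hγ hFr hαβ lam hlam
    S.loc S.scalarSites S.otherSites S.ramPrimes (fun v hv => (S.mem_loc hv).1)
    (fun v hv => (S.mem_sites (S.mem_scalarSites hv).1).2.2.2.2)
    (fun v hv => (S.mem_sites (S.mem_otherSites hv).1).2.2.2.2)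
    (Finset.disjoint_left.mpr fun v h h' => (S.mem_otherSites h').2 (S.mem_scalarSites h).2)
    (fun h => (S.mem_sites (S.mem_scalarSites h).1).2.1 rfl)
    (fun h => (S.mem_sites (S.mem_otherSites h).1).2.1 rfl)
    (fun h => (Finset.mem_filter.mp h).2.1 rfl) S.loc_cover
    (fun v hv => ⟨(S.mem_sites (hsites v hv)).2.2.1, (S.mem_sites (hsites v hv)).2.2.2.1,
      sq_trace_frob Q (hx₁ ▸ hpp x₁) (fun σ => by rw [(hspec x₁).1, hres]) (hsites v hv)⟩)
    (fun v hv => (S.mem_scalarSites hv).2) (fun v hv => (Finset.mem_filter.mp hv).2.2) Q.q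
    (fun V hV => Q.bound V hV) (fun z => (hpp z).unramified) (fun z => (hpp z).steinberg)
    (fun h z => (hpp z).strict h) (fun h z => (hpp z).flat h) τ
    (fun v hv => by
      obtain ⟨y, h1, h2, h3⟩ := hτ v (S.mem_sites (hsites v hv)).1
      exact ⟨h2, y, h1, h3⟩)
    u hu kc hkc μ hμ
  refine ⟨le_trans (Nat.le_add_right _ g) hg, τ, kc,
    siteVars (fun v => coord uR (N (Start.frob v))) (fun v => coord uR (N (τ v)))
      (fun v => qform (coord uR (N (Start.frob v)))) μ x, hτ,
    hspan.trans (span_siteVars (Nat.le_sub_of_add_le' hg) _ _ _ _ _ _),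
    fun a i z => hcoord z _ i, fun a i z => hcoord z _ i, fun b z => ?_,
    fun b z => ⟨fun h0 => ?_, ?_⟩⟩
  · show (evalPt (f := f) z).toRingHom (qform (coord uR (N (Start.frob b.1)))) = _
    rw [qform_map]
    simp only [AlgHom.toRingHom_eq_coe, AlgHom.coe_toRingHom, hcoord]
    rfl
  · have h := residue_coord_lift (hspec z).2.2.2 u (Start.frob b.1) (kc b.1)
    rw [h0, map_zero] at h
    exact hkc b.1 b.2 ((map_eq_zero _).mp h.symm)
  · have h := congrArg (evalPt (f := f) z) (hμ b.1 b.2)
    rwa [map_mul, hcoord, hcoord] at h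

variable [Module.Free O C] (j : C →ₐ[O] Kbar O) (hj : Function.Injective j)
  (hall : ∀ (x : Q.pairAlg B →ₐ[O] Kbar O) t, x t ∈ j.range)

include hj hall in
omit [IsAdicComplete (maximalIdeal O) O] [Finite (ResidueField O)] [CharZero O] [Module.Free O C]
  [IsAdicComplete (maximalIdeal C) C] [Finite (ResidueField C)] [CharZero C] in
/-- The square of a diamond variable is congruent to an element of the ideal of the variables,
modulo elements nilpotent on the twisted side. -/
private theorem exists_sq_sub_nilpotent {f : Q.Pt B C → GalQ → C} [Nonempty (Q.Pt B C)]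
    [IsLocalRing (trAlg O f)]
    (hres' : ∀ g, ∃ o : O, ∀ z, f z g - algebraMap O C o ∈ maximalIdeal C)
    {ρ : Q.Pt B C → MatRep C} (hρ : ∀ z σ, (ρ z σ).trace = f z σ)
    (hpp : ∀ z, Q.PointProps z.1.2 (Q.coefHom B z.1.1) (ρ z))
    {β : Type} [Fintype β] {lam : O} (V : β → trAlg O f)
    (hV : maximalIdeal (trAlg O f) =
      Ideal.span (insert (algebraMap O (trAlg O f) lam) (Set.range V)))
    (lift : trAlg O f → Q.pairAlg B) (hliftz : ∀ b z, z.1.1 (lift b) = evalPt (f := f) z b)
    (t : Fin r) :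
    ∃ s ∈ Ideal.span (insert (algebraMap Q.Coef (Q.pairAlg B) (algebraMap O Q.Coef lam))
        (Set.range fun v => lift (V v))),
      IsNilpotent (Q.proj B true (algebraMap Q.Coef (Q.pairAlg B) (yA O t) ^ 2 - s)) := by
  have := Q.finite_pt B j hj
  have : Fact (Q.q t).Prime := ⟨Q.prime t⟩
  obtain ⟨σ, hσ, hσu⟩ := exists_inertia_place (unitGen (Q.q t))
  have htr : ∀ z : Q.Pt B C, f z σ * z.1.1 (algebraMap Q.Coef _ (Q.unitVal z.1.2 (Q.q t))) =
      z.1.1 (algebraMap Q.Coef _ (Q.unitVal z.1.2 (Q.q t))) *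
        z.1.1 (algebraMap Q.Coef _ (Q.unitVal z.1.2 (Q.q t))) + 1 := fun z => by
    have h := (hpp z).twPrime t σ hσ hσu
    rwa [hρ] at h
  have hmem : trVal O f σ - 2 ∈ maximalIdeal (trAlg O f) :=
      (mem_maximalIdeal_trAlg hres').mpr fun z => by
    rw [← residue_eq_zero_iff, map_sub (evalPt z), map_sub, map_ofNat, map_ofNat]
    have h := congrArg (residue C) (htr z)
    have h1 : residue C (z.1.1 (algebraMap Q.Coef _ (Q.unitVal z.1.2 (Q.q t)))) = 1 := by
      obtain ⟨k, hk⟩ := Q.exists_unitVal_pow z.1.2 (Q.q t)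
      exact residue_eq_one_of_pow (p := p) (k := k) (by rw [← map_pow, ← map_pow, hk, map_one,
        map_one])
    rw [map_mul, map_add, map_mul, h1, map_one, mul_one, mul_one, one_add_one_eq_two] at h
    show residue C (f z σ) - 2 = 0
    rw [h, sub_self]
  rw [hV, Ideal.mem_span_insert] at hmem
  obtain ⟨a, y, hy, e⟩ := hmem
  obtain ⟨c, rfl⟩ := Ideal.mem_span_range_iff_exists_fun.mp hy
  set uT := algebraMap Q.Coef (Q.pairAlg B) (Q.unitVal true (Q.q t))
  refine ⟨uT * (lift a * algebraMap Q.Coef _ (algebraMap O Q.Coef lam) +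
    ∑ v, lift (c v) * lift (V v)), Ideal.mul_mem_left _ _ (add_mem
      (Ideal.mul_mem_left _ _ (Ideal.subset_span (Or.inl rfl)))
      (Ideal.sum_mem _ fun v _ => Ideal.mul_mem_left _ _ (Ideal.subset_span (Or.inr ⟨v, rfl⟩)))),
    Q.isNilpotent_proj_of_pt B j hj hall true _ fun z hz => ?_⟩
  have he := congrArg (evalPt (f := f) z) e
  rw [map_sub, map_ofNat, map_add, map_sum, map_mul, AlgHom.commutes] at he
  simp only [map_mul] at he
  have h := htr z
  rw [hz] at h
  have hy' : z.1.1 (algebraMap Q.Coef _ (yA O t)) = z.1.1 uT - 1 := by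
    rw [show yA O t = Q.unitVal true (Q.q t) - 1 by rw [unitVal_q]; rfl, map_sub, map_sub,
      map_one, map_one]
  rw [map_sub, map_pow, hy', map_mul, map_add, map_sum, map_mul]
  simp only [map_mul, hliftz]
  rw [show z.1.1 (algebraMap Q.Coef (Q.pairAlg B) (algebraMap O Q.Coef lam)) =
    algebraMap O C lam from z.1.1.commutes lam, ← he]
  show (z.1.1 uT - 1) ^ 2 - z.1.1 uT * (f z σ - 2) = 0
  linear_combination -h

include hj hall in
omit [Finite (ResidueField O)] [Finite (ResidueField C)] in
/-- The patching datum of a level, from variables and their identities at the points: the traces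
lift to the Hecke algebra, where an element vanishing at the points of a side is nilpotent. -/
private theorem exists_valid_of_points {m : ℕ} (hm : m ≤ n + 1 + 1) {f : Q.Pt B C → GalQ → C}
    [Nonempty (Q.Pt B C)] [IsLocalRing (trAlg O f)]
    (hf : ∀ z : Q.Pt B C,
      IsPointTrace hpC (Q.level * p).primeFactors (fun l => z.1.1 (Q.frobGen B l)) (f z))
    (hpO : (p : O) ∈ maximalIdeal O)
    (hres' : ∀ g, ∃ o : O, ∀ z, f z g - algebraMap O C o ∈ maximalIdeal C)
    {ρ : Q.Pt B C → MatRep C} (hρ : ∀ z σ, (ρ z σ).trace = f z σ)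
    (hpp : ∀ z, Q.PointProps z.1.2 (Q.coefHom B z.1.1) (ρ z))
    {lam u : O} (hlam : maximalIdeal O = Ideal.span {lam})
    (hB : ∀ i x y, (B true).b i x y - (B false).b i x y ∈ Ideal.span {algebraMap O Q.Coef lam})
    {γ : Type} [Fintype γ] [Fintype (PVar {v // v ∈ S.scalarSites} {v // v ∈ S.otherSites} γ)]
    (V : PVar {v // v ∈ S.scalarSites} {v // v ∈ S.otherSites} γ → trAlg O f)
    (hV : maximalIdeal (trAlg O f) =
      Ideal.span (insert (algebraMap O (trAlg O f) lam) (Set.range V)))
    (hqB : ∀ z : Q.Pt B C, z.1.2 = true → ∀ a, (S.siteF u (.inl a)).eval₂ (algebraMap O C)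
      (qform fun i => evalPt z (V (.vB a i))) = 0)
    (hcross : ∀ z : Q.Pt B C, z.1.2 = true → ∀ a i k,
      evalPt z (V (.vA a i)) * evalPt z (V (.vB a k)) =
        evalPt z (V (.vA a k)) * evalPt z (V (.vB a i)))
    (hmuh : ∀ z : Q.Pt B C, z.1.2 = true → ∀ b, (S.siteF u (.inr b)).eval₂ (algebraMap O C)
      (evalPt z (V (.vmu b)) * evalPt z (V (.vmu b)) * evalPt z (V (.vh b))) = 0)
    (hst : ∀ z : Q.Pt B C, z.1.2 = false → ∀ i,
      hSite (fun v => evalPt z (V v)) i = algebraMap O C (S.siteC u i)) :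
    ∃ D : PatchData r d {v // v ∈ S.scalarSites} {v // v ∈ S.otherSites} γ (PLevel O r m),
      D.Valid (levelParams lam d (S.siteF u) (S.siteC u)) := by
  have hp : p.Prime := Fact.out
  have := Q.finite_pt B j hj
  choose lift hlift using fun b : trAlg O f => Q.trAlg_le_range B j hj hf hpO b.2
  have hliftz : ∀ b (z : Q.Pt B C), z.1.1 (lift b) = evalPt (f := f) z b := fun b z =>
    congrFun (hlift b) z
  have hnilp := Q.isNilpotent_proj_of_pt B j hj hall
  have heval : ∀ (P : O[X]) (t : Q.pairAlg B) (z : Q.Pt B C),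
      z.1.1 (P.eval₂ ((algebraMap Q.Coef (Q.pairAlg B)).comp (algebraMap O Q.Coef)) t) =
        P.eval₂ (algebraMap O C) (z.1.1 t) := fun P t z => by
    rw [← AlgHom.coe_toRingHom, hom_eval₂]
    congr 1
    exact RingHom.ext fun o => z.1.1.commutes o
  -- the levels
  have : IsLocalRing (LevelAlg O r (p ^ (n + 1))) := Q.isLocalRing_coef
  have : Fact (1 < p ^ (n + 1)) := ⟨Nat.one_lt_pow n.succ_ne_zero hp.one_lt⟩
  have : IsReduced Q.Coef := isReduced_levelAlg
  let : Algebra Q.Coef Q.Coef := Algebra.id _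
  refine exists_valid_of_heckeAlgebra (A := Q.Coef) (T := Q.pairAlg B) (R := PLevel O r m)
    (algebraMap O Q.Coef) (yA O) lam (maximalIdeal_levelAlg hpO hlam) (toPLevel hpO hm)
    (fun o => toPLevel_algebraMap o) (fun t => toPLevel_yA t) (Q.proj B true) (Q.proj B false)
    (Q.proj_congr B hlam hB) (fun v => lift (V v)) (S.siteF u) (S.siteC u) ?_ ?_ ?_ ?_ ?_ ?_
  · exact exists_sq_sub_nilpotent Q B j hj hall hres' hρ hpp V hV lift hliftz
  · intro v
    refine Q.isNilpotent_residue_proj B j hj hall true _ fun z _ => ?_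
    rw [hliftz]
    exact (mem_maximalIdeal_trAlg hres').mp
      (hV ▸ Ideal.subset_span (Or.inr ⟨v, rfl⟩)) z
  · intro a
    refine hnilp true _ fun z hz => ?_
    rw [heval, map_add, map_mul, map_mul, hliftz, hliftz, hliftz]
    exact hqB z hz a
  · intro a i k
    refine hnilp true _ fun z hz => ?_
    rw [map_sub, map_mul, map_mul, hliftz, hliftz, hliftz, hliftz, sub_eq_zero]
    exact hcross z hz a i k
  · intro b
    refine hnilp true _ fun z hz => ?_
    rw [heval, map_mul, map_mul, hliftz, hliftz]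
    exact hmuh z hz b
  · intro i
    refine hnilp false _ fun z hz => ?_
    rw [map_sub, show z.1.1 (algebraMap Q.Coef (Q.pairAlg B) (algebraMap O Q.Coef (S.siteC u i))) =
      algebraMap O C (S.siteC u i) from z.1.1.commutes _, sub_eq_zero, ← hst z hz i]
    rcases i with a | b <;> simp only [hSite, map_add, map_mul, hliftz]

/-- **The patching datum of a level.** -/
theorem exists_valid (hp2 : p ≠ 2) (hd : 0 < d)
    {lam u : O} (hlam : maximalIdeal O = Ideal.span {lam}) (hu : 2 * u = 1)
    (hB : ∀ i x y, (B true).b i x y - (B false).b i x y ∈ Ideal.span {algebraMap O Q.Coef lam})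
    [Fintype (PVar {v // v ∈ S.scalarSites} {v // v ∈ S.otherSites}
      (Fin (r - (3 * S.scalarSites.card + S.otherSites.card))))]
    {m : ℕ} (hm : m ≤ n + 1 + 1) :
    3 * S.scalarSites.card + S.otherSites.card ≤ r ∧
    ∃ D : PatchData r d {v // v ∈ S.scalarSites} {v // v ∈ S.otherSites}
        (Fin (r - (3 * S.scalarSites.card + S.otherSites.card))) (PLevel O r m),
      D.Valid (levelParams lam d (S.siteF u) (S.siteC u)) := by
  classical
  have hp : p.Prime := Fact.out
  have hpO : (p : O) ∈ maximalIdeal O := mem_maximalIdeal_of_charP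
  obtain ⟨C, _, _, _, _, _, _, _, _, _, _, j, hpC, f, hj, hall, hf, hres, hprops⟩ :=
    Q.exists_family B hp2 hd hpO
  have : CharP (ResidueField C) p := (CharP.charP_iff_prime_eq_zero hp).mpr
    (by rw [← map_natCast (residue C)]; exact (residue_eq_zero_iff _).mpr hpC)
  have hinjC : Function.Injective (algebraMap O C) := fun a b h =>
    algebraMap_kbar_injective O (by rw [← j.commutes a, ← j.commutes b, h])
  have := Q.finite_pt B j hj
  obtain ⟨z₁, hz₁⟩ := Q.exists_pt B j hj hall false hd
  have : Nonempty (Q.Pt B C) := ⟨z₁⟩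
  have hres' : ∀ g, ∃ o : O, ∀ z, f z g - algebraMap O C o ∈ maximalIdeal C := fun g => by
    obtain ⟨o, ho⟩ := residue_surjective (S.R.rep g).trace
    exact ⟨o, fun z => by
      rw [← residue_eq_zero_iff, map_sub, hres, ← ho, ResidueField.map_residue, sub_self]⟩
  have : IsLocalRing (trAlg O f) := isLocalRing_trAlg hres'
  obtain ⟨F, hγ, hFr, hαβ⟩ := exists_pointsFrame hf hp2 hpO S.R hres
  set ρ : Q.Pt B C → MatRep C := fun z => ptRep (isPseudoRep_family hf hpO) F z
  have hspec := fun z => ptRep_spec hf hpO S.R hres hγ hFr hαβ z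
  have hpp : ∀ z, Q.PointProps z.1.2 (Q.coefHom B z.1.1) (ρ z) := fun z =>
    hprops z _ (hspec z).2.2.1 (hspec z).2.1 (hspec z).1
  obtain ⟨hle, τ, kc, V, hτ, hV, hVA, hVB, hVh, hVmu⟩ :=
    Q.exists_siteVars hp2 hf hres hγ hFr hαβ hpp ⟨z₁, hz₁⟩ hlam hu
  -- identities at sites
  have hsiteId : ∀ z : Q.Pt B C, z.1.2 = true → ∀ v ∈ S.sites,
      (∀ i k,
        coord (algebraMap O C u) (ρ z (Start.frob v)) i * coord (algebraMap O C u) (ρ z (τ v)) k =
        coord (algebraMap O C u) (ρ z (Start.frob v)) k * coord (algebraMap O C u) (ρ z (τ v)) i) ∧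
      (sitePoly u (S.siteRoot v) (p ^ (v - 1).factorization p)).eval₂ (algebraMap O C)
        (qform (coord (algebraMap O C u) (ρ z (τ v)))) = 0 := by
    intro z hz v hv
    obtain ⟨hvP, hvp, hv1, hun, -⟩ := S.mem_sites hv
    obtain ⟨y, hy, hτv, hτy⟩ := hτ v hvP
    exact site_identities hp2 hinjC hpC (hspec z).2.2.1 (hspec z).2.1 _ (hspec z).2.2.2 hvP hvp hv1
      hun (Start.place_spec v hvP) hy hτv hτy (Start.frob_spec v hvP) ((hpp z).twSite hz v hv) hu
      (S.siteRoot_spec hv)
  refine ⟨hle, Q.exists_valid_of_points B j hj hall hm hf hpO hres' (fun z σ => (hspec z).1 σ) hpp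
    hlam hB V hV (fun z hz a => ?_) (fun z hz a i k => ?_) (fun z hz b => ?_) fun z hz i => ?_⟩
  · simp only [hVB]
    exact (hsiteId z hz a.1 (S.mem_scalarSites a.2).1).2
  · simp only [hVA, hVB]
    exact (hsiteId z hz a.1 (S.mem_scalarSites a.2).1).1 i k
  · obtain ⟨h1, h2⟩ := hsiteId z hz b.1 (S.mem_otherSites b.2).1
    rw [hVh, qform_of_proportional (k := kc b.1) (hVmu b z).1 (hVmu b z).2 h1]
    exact h2
  · obtain ⟨hvP, hvp, -, -, -⟩ := S.mem_sites (S.siteOf_mem i)
    obtain ⟨ε, hε, hst⟩ := (hpp z).site hz _ (S.siteOf_mem i)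
    have h := qform_of_steinberg hpC (hspec z).2.1 hvP hvp hε hst hu (Start.place_spec _ hvP)
      (Start.frob_spec _ hvP)
    rcases i with a | b
    · simp only [hSite, hVA]; exact h
    · simp only [hSite, hVh]; exact h

end TWData

end FLTAgent.LevelLowering
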