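import Fermat.Agent.LevelLowering.Core.Bases
import Fermat.Agent.ModularityLifting.Points.Coeff
import Fermat.Agent.ModularityLifting.PointsDatum.Reduced
import Mathlib.RingTheory.Adjoin.Basic
import Mathlib.Algebra.Algebra.Prod

/-!
# The Hecke algebra acting on both sides and its points

`pairAlg` is generated by the pairs of normalised Hecke operators `ψ(l)⁻¹ T_l`; its projections
are congruent modulo a uniformiser (`proj_congr`).  A point factors through one of the two sides
and has an eigensymbol there (`exists_eigensymbol`).  Used by the points and the patching datum.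
-/

set_option autoImplicit false

noncomputable section

open IsLocalRing Matrix WeierstrassCurve Polynomial

namespace FLTAgent.LevelLowering

open FLTAgent.Density (GalQ Qbar)
open FLTAgent.DefRing FLTAgent.ModularityLifting FLTAgent.GaloisAttach FLTAgent.HeckePoints
  FLTAgent.LevelRaising

variable {p : ℕ} [Fact p.Prime] {W : WeierstrassCurve ℤ} {O : Type} [CommRing O] [IsDomain O]
  [IsDiscreteValuationRing O] [CharP (ResidueField O) p] {S : LowerSetup p W O} {r n : ℕ}

namespace TWData

variable (Q : TWData S r n)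

omit [Fact (Nat.Prime p)] [CharP (ResidueField O) p] in
theorem not_dvd_of_not_dvd_mul {l : ℕ} (h : ¬ l ∣ Q.level * p) : ¬ l ∣ Q.level :=
  fun hd => h (hd.mul_right p)

omit [Fact (Nat.Prime p)] [CharP (ResidueField O) p] in
theorem isUnit_scalar (tw : Bool) {l : ℕ} (hl : l.Prime) (hlL : ¬ l ∣ Q.level) :
    IsUnit (Q.scalar tw l) := by
  refine IsUnit.prod_iff.mpr fun t ht => ?_
  obtain ⟨htp, htL, -⟩ := Nat.mem_primeFactors.mp ht
  refine ((ZMod.isUnit_iff_coprime l t).mpr ?_).map (Q.chi tw t)
  rw [hl.coprime_iff_not_dvd]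
  exact fun hd => hlL ((Nat.prime_dvd_prime_iff_eq hl htp).mp hd ▸ htL)

theorem residue_scalar (tw : Bool) {l : ℕ} (hl : l.Prime) (hlL : ¬ l ∣ Q.level) :
    residue Q.Coef (Q.scalar tw l) = 1 := by
  rw [scalar, map_prod]
  refine Finset.prod_eq_one fun t ht => ?_
  obtain ⟨htp, htL, -⟩ := Nat.mem_primeFactors.mp ht
  refine Q.residue_chi tw htp ((ZMod.isUnit_iff_coprime l t).mpr ?_)
  rw [hl.coprime_iff_not_dvd]
  exact fun hd => hlL ((Nat.prime_dvd_prime_iff_eq hl htp).mp hd ▸ htL)

omit [Fact (Nat.Prime p)] [CharP (ResidueField O) p] in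
theorem scalar_sq (tw : Bool) {l : ℕ} (hl : l.Prime) (hlL : ¬ l ∣ Q.level) :
    Q.scalar tw l * Q.scalar tw l = Q.delta tw (l : ZMod Q.level) := by
  have hu : IsUnit ((l : ℤ) : ZMod Q.level) := by
    rw [Int.cast_natCast, ZMod.isUnit_iff_coprime, hl.coprime_iff_not_dvd]
    exact hlL
  have h := Q.delta_apply tw hu
  simp only [Int.cast_natCast] at h
  rw [h, scalar, ← Finset.prod_mul_distrib]
  simp only [pow_two]

variable {d : ℕ} (B : ∀ tw : Bool, EigenBasis (Q.delta tw) Q.badSet Q.aA d)

open scoped Classical in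
/-- The normalised Hecke matrix. -/
def frobMat (tw : Bool) (l : ℕ) : Matrix (Fin d) (Fin d) Q.Coef :=
  if l.Prime ∧ ¬ l ∣ Q.level * p then Ring.inverse (Q.scalar tw l) • (B tw).tMat l else 0

theorem frobMat_eq (tw : Bool) {l : ℕ} (hl : l.Prime) (hlL : ¬ l ∣ Q.level * p) :
    Q.frobMat B tw l = Ring.inverse (Q.scalar tw l) • (B tw).tMat l := if_pos ⟨hl, hlL⟩

theorem frobMat_comm (tw : Bool) (l m : ℕ) :
    Q.frobMat B tw l * Q.frobMat B tw m = Q.frobMat B tw m * Q.frobMat B tw l := by
  unfold frobMat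
  split_ifs with h h'
  · rw [smul_mul_smul_comm, smul_mul_smul_comm, mul_comm (Ring.inverse (Q.scalar tw l)),
      (B tw).tMat_comm (fun q hq hd => Q.mem_badSet_of_dvd hq (hd.mul_right p)) h.1
        (Q.not_dvd_of_not_dvd_mul h.2) h'.1 (Q.not_dvd_of_not_dvd_mul h'.2)]
  all_goals simp

/-- The algebra generated by the pairs of normalised operators. -/
def pairAlg : Subalgebra Q.Coef (Matrix (Fin d) (Fin d) Q.Coef × Matrix (Fin d) (Fin d) Q.Coef) :=
  Algebra.adjoin Q.Coef (Set.range fun l => (Q.frobMat B true l, Q.frobMat B false l))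

instance instCommRingPairAlg : CommRing (Q.pairAlg B) :=
  { (Q.pairAlg B).toRing with
    mul_comm := fun x y => by
      refine (Algebra.isMulCommutative_adjoin Q.Coef
        (s := Set.range fun l => (Q.frobMat B true l, Q.frobMat B false l)) ?_).is_comm.comm x y
      rintro _ ⟨l, rfl⟩ _ ⟨m, rfl⟩
      exact Prod.ext (Q.frobMat_comm B true l m) (Q.frobMat_comm B false l m) }

instance finite_pairAlg : Module.Finite O (Q.pairAlg B) :=
  Module.Finite.of_injective ((Q.pairAlg B).val.toLinearMap.restrictScalars O)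
    Subtype.val_injective

instance isTorsionFree_pairAlg : Module.IsTorsionFree O (Q.pairAlg B) :=
  Function.Injective.moduleIsTorsionFree (Subtype.val : Q.pairAlg B → _) Subtype.val_injective
    (fun _ _ => rfl)

/-- The projection to a side. -/
def proj : Bool → (Q.pairAlg B →ₐ[Q.Coef] Matrix (Fin d) (Fin d) Q.Coef)
  | true => (AlgHom.fst Q.Coef _ _).comp (Q.pairAlg B).val
  | false => (AlgHom.snd Q.Coef _ _).comp (Q.pairAlg B).val

/-- The generators. -/
def frobGen (l : ℕ) : Q.pairAlg B :=
  ⟨(Q.frobMat B true l, Q.frobMat B false l), Algebra.subset_adjoin ⟨l, rfl⟩⟩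

theorem proj_frobGen (tw : Bool) (l : ℕ) : Q.proj B tw (Q.frobGen B l) = Q.frobMat B tw l := by
  cases tw <;> rfl

/-- The two projections are congruent. -/
theorem proj_congr {lam : O} (hlam : maximalIdeal O = Ideal.span {lam})
    (hB : ∀ i x y, (B true).b i x y - (B false).b i x y ∈ Ideal.span {algebraMap O Q.Coef lam})
    (t : Q.pairAlg B) (i k : Fin d) :
    Q.proj B true t i k - Q.proj B false t i k ∈ Ideal.span {algebraMap O Q.Coef lam} := by
  classical
  set π := Ideal.Quotient.mk (Ideal.span {algebraMap O Q.Coef lam})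
  have hπ : π (algebraMap O Q.Coef lam) = 0 :=
    Ideal.Quotient.eq_zero_iff_mem.mpr (Ideal.mem_span_singleton_self _)
  have : NeZero Q.level := ⟨Q.level_ne_zero⟩
  suffices h : ∀ x ∈ Q.pairAlg B, π.mapMatrix x.1 = π.mapMatrix x.2 from
    Ideal.Quotient.eq.mp (congrFun (congrFun (h t.1 t.2) i) k)
  intro x hx
  induction hx using Algebra.adjoin_induction with
  | mem x hx =>
    obtain ⟨l, rfl⟩ := hx
    simp only
    by_cases h : l.Prime ∧ ¬ l ∣ Q.level * p
    · have hlL := Q.not_dvd_of_not_dvd_mul h.2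
      have hs : π (Q.scalar true l) = π (Q.scalar false l) := by
        rw [scalar, scalar, map_prod, map_prod]
        refine Finset.prod_congr rfl fun t _ => ?_
        rw [← MulChar.ringHomComp_apply, ← MulChar.ringHomComp_apply, chi, chi,
          map_primeChar π (Q.unitVal_pow_sub_one _ _), map_primeChar π (Q.unitVal_pow_sub_one _ _),
          Q.unitVal_congr hlam π hπ]
      have hinv : ∀ tw, π (Ring.inverse (Q.scalar tw l)) = Ring.inverse (π (Q.scalar tw l)) :=
        fun tw => by
          obtain ⟨u, hu⟩ := Q.isUnit_scalar tw h.1 hlL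
          rw [← hu, Ring.inverse_unit, show π ↑u = ↑(Units.map π.toMonoidHom u) from rfl,
            Ring.inverse_unit, ← map_inv]
          rfl
      rw [Q.frobMat_eq B true h.1 h.2, Q.frobMat_eq B false h.1 h.2]
      ext i k
      simp only [RingHom.mapMatrix_apply, Matrix.map_apply, Matrix.smul_apply, smul_eq_mul, map_mul,
        hinv, hs]
      congr 1
      exact congrFun (congrFun ((B true).map_tMat_eq
        (fun q hq hd => Q.mem_badSet_of_dvd hq (hd.mul_right p)) (B false) π
        (Q.delta_congr hlam π hπ) (fun i => funext fun x => funext fun y =>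
          Ideal.Quotient.eq.mpr (hB i x y)) h.1 hlL) i) k
    · simp only [frobMat, if_neg h]
  | algebraMap a => rfl
  | add x y _ _ hx hy => simp only [Prod.fst_add, Prod.snd_add, map_add, hx, hy]
  | mul x y _ _ hx hy => simp only [Prod.fst_mul, Prod.snd_mul, map_mul, hx, hy]

/-- A point factors through a side. -/
def OnSide {K : Type} [CommRing K] [Algebra O K] (tw : Bool) (x : Q.pairAlg B →ₐ[O] K) : Prop :=
  ∀ t, Q.proj B tw t = 0 → x t = 0

/-- An element vanishing at the points of a side is nilpotent there. -/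
theorem isNilpotent_proj (tw : Bool) (t : Q.pairAlg B)
    (h : ∀ x : Q.pairAlg B →ₐ[O] Kbar O, Q.OnSide B tw x → x t = 0) :
    IsNilpotent (Q.proj B tw t) := by
  let π : Q.pairAlg B →ₐ[O] Matrix (Fin d) (Fin d) Q.Coef := (Q.proj B tw).restrictScalars O
  let : CommRing π.range :=
    { π.range.toRing with
      mul_comm := fun x y => Subtype.ext (by
        obtain ⟨a, ha⟩ := x.2
        obtain ⟨b, hb⟩ := y.2
        show (x : Matrix (Fin d) (Fin d) Q.Coef) * y = y * x
        rw [← ha, ← hb, ← map_mul, mul_comm, map_mul]) }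
  have : Module.Finite O π.range :=
    Module.Finite.of_injective π.range.val.toLinearMap Subtype.val_injective
  have : Module.IsTorsionFree O π.range :=
    Function.Injective.moduleIsTorsionFree (Subtype.val : π.range → _) Subtype.val_injective
      (fun _ _ => rfl)
  obtain ⟨k, hk⟩ := isNilpotent_of_forall_point O π.range (x := ⟨π t, t, rfl⟩) fun f =>
    h (f.comp π.rangeRestrict) fun s hs => by
      rw [AlgHom.comp_apply, show π.rangeRestrict s = 0 from Subtype.ext hs, map_zero]
  exact ⟨k, congrArg Subtype.val hk⟩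

variable {C : Type} [CommRing C] [Algebra O C]

/-- The values of the coefficient ring at a point. -/
def coefHom (x : Q.pairAlg B →ₐ[O] C) : Q.Coef →ₐ[O] C :=
  x.comp (IsScalarTower.toAlgHom O Q.Coef (Q.pairAlg B))

theorem apply_algebraMap (x : Q.pairAlg B →ₐ[O] C) (a : Q.Coef) :
    x (algebraMap Q.Coef (Q.pairAlg B) a) = Q.coefHom B x a := rfl

/-- The eigenvalue of `T_l` at a point of a side. -/
def eigenVal (tw : Bool) (x : Q.pairAlg B →ₐ[O] C) (l : ℕ) : C :=
  Q.coefHom B x (Q.scalar tw l) * x (Q.frobGen B l)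

theorem inverse_mul_eigenVal (tw : Bool) (x : Q.pairAlg B →ₐ[O] C) {l : ℕ} (hl : l.Prime)
    (hlL : ¬ l ∣ Q.level * p) :
    Q.coefHom B x (Ring.inverse (Q.scalar tw l)) * Q.eigenVal B tw x l = x (Q.frobGen B l) := by
  rw [eigenVal, ← mul_assoc, ← map_mul,
    Ring.inverse_mul_cancel _ (Q.isUnit_scalar tw hl (Q.not_dvd_of_not_dvd_mul hlL)), map_one,
    one_mul]

theorem proj_scalar_mul (tw : Bool) {l : ℕ} (hl : l.Prime) (hlL : ¬ l ∣ Q.level * p) :
    Q.proj B tw (algebraMap Q.Coef (Q.pairAlg B) (Q.scalar tw l) * Q.frobGen B l) =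
      (B tw).tMat l := by
  rw [map_mul, AlgHom.commutes, proj_frobGen, Q.frobMat_eq B tw hl hlL,
    Algebra.algebraMap_eq_smul_one, smul_one_mul, smul_smul,
    Ring.mul_inverse_cancel _ (Q.isUnit_scalar tw hl (Q.not_dvd_of_not_dvd_mul hlL)), one_smul]

variable [CharZero O] in
/-- A point of a side has an eigensymbol on that side. -/
theorem exists_eigensymbol (j : C →ₐ[O] Kbar O) (tw : Bool)
    (x : Q.pairAlg B →ₐ[O] C) (hx : Q.OnSide B tw x) :
    ∃ v : Fin d → Kbar O,
      comb (fun i => mapVal (j.comp (Q.coefHom B x)).toRingHom ((B tw).b i)) v ≠ 0 ∧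
      ∀ l, l.Prime → ¬ l ∣ Q.level * p →
        tOpChar (Kbar O) ((Q.delta tw).ringHomComp (j.comp (Q.coefHom B x)).toRingHom) l
            (comb (fun i => mapVal (j.comp (Q.coefHom B x)).toRingHom ((B tw).b i)) v) =
          j (Q.eigenVal B tw x l) •
            comb (fun i => mapVal (j.comp (Q.coefHom B x)).toRingHom ((B tw).b i)) v := by
  have : Module.Finite Q.Coef (Q.pairAlg B) :=
    Module.Finite.of_injective (Q.pairAlg B).val.toLinearMap Subtype.val_injective
  have : CharZero (Kbar O) := charZero_of_injective_ringHom (algebraMap_kbar_injective O)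
  set φ := (j.comp (Q.coefHom B x)).toRingHom
  obtain ⟨v, hv0, hv⟩ := exists_eigenvector (Q.proj B tw) φ (j.comp x).toRingHom (fun _ => rfl)
    fun t ht => by
      show j (x t) = 0
      rw [hx t ht, map_zero]
  refine ⟨v, fun h0 => hv0 (comb_injective (B tw).isUnit_det φ (h0.trans (map_zero _).symm)),
    fun l hl hlL => ?_⟩
  rw [apply_comb φ (tOpChar Q.Coef (Q.delta tw) l)
      (tOpChar (Kbar O) ((Q.delta tw).ringHomComp φ) l) (fun Φ => mapVal_tOpChar φ l Φ)
      ((B tw).tOp_b (fun q hq hd => Q.mem_badSet_of_dvd hq (hd.mul_right p)) hl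
        (Q.not_dvd_of_not_dvd_mul hlL)) v, ← Q.proj_scalar_mul B tw hl hlL, hv, map_smul]
  show j (x _) • _ = _
  rw [map_mul x, apply_algebraMap]
  rfl

/-- The eigenvalues are residually the given ones. -/
theorem residue_eigenVal [IsLocalRing C] [IsDomain C] [Module.Finite O C]
    [IsLocalHom (algebraMap O C)] (tw : Bool)
    (x : Q.pairAlg B →ₐ[O] C) (hx : Q.OnSide B tw x) (hd : 0 < d) {l : ℕ} (hl : l.Prime)
    (hlS : l ∉ Q.badSet) :
    residue C (Q.eigenVal B tw x l) =
      ResidueField.map (algebraMap O C) (residue O (S.lift l)) := by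
  classical
  have hlL : ¬ l ∣ Q.level * p := fun h => hlS (Q.mem_badSet_of_dvd hl h)
  set φ : Q.Coef →+* C := (Q.coefHom B x).toRingHom
  have : IsLocalHom φ := PointsDatum.isLocalHom_of_finite (Q.coefHom B x)
  set N : Matrix (Fin d) (Fin d) Q.Coef := (B tw).tMat l - Matrix.scalar (Fin d) (Q.aA l) with hN
  set NT : Q.pairAlg B :=
    algebraMap Q.Coef (Q.pairAlg B) (Q.scalar tw l) * Q.frobGen B l -
      algebraMap Q.Coef (Q.pairAlg B) (Q.aA l) with hNT
  have hval : Q.proj B tw NT = N := by
    rw [hNT, map_sub, Q.proj_scalar_mul B tw hl hlL, AlgHom.commutes, hN]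
    rfl
  have hnil : IsNilpotent ((residue Q.Coef).mapMatrix N) :=
    (B tw).isNilpotent_residual (fun q hq hd => Q.mem_badSet_of_dvd hq (hd.mul_right p)) hl hlS
  have hchar : N.charpoly.map (residue Q.Coef) = Polynomial.X ^ d := by
    rw [← Matrix.charpoly_map]
    have h := Matrix.isNilpotent_charpoly_sub_pow_of_isNilpotent hnil
    rw [Fintype.card_fin] at h
    exact sub_eq_zero.mp (Polynomial.ext fun m => by
      simpa using (Polynomial.isNilpotent_iff.mp h m).eq_zero)
  have h0 : x (aeval NT N.charpoly) = 0 := hx _ (by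
    rw [← aeval_algHom_apply, hval, Matrix.aeval_self_charpoly])
  rw [aeval_def, ← AlgHom.coe_toRingHom, hom_eval₂,
    show (x : Q.pairAlg B →+* C).comp (algebraMap Q.Coef (Q.pairAlg B)) = φ from rfl] at h0
  have h3 := congrArg (residue C) h0
  rw [map_zero, hom_eval₂, show (residue C).comp φ = (ResidueField.map φ).comp (residue Q.Coef) from
      RingHom.ext fun o => (ResidueField.map_residue _ o).symm, ← eval₂_map, hchar,
    eval₂_X_pow] at h3
  have h4 := (pow_eq_zero_iff hd.ne').mp h3
  rw [AlgHom.coe_toRingHom, hNT, map_sub, map_mul, apply_algebraMap, apply_algebraMap, map_sub,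
    sub_eq_zero] at h4
  rw [eigenVal, h4, ResidueField.map_residue]
  show residue C (Q.coefHom B x (algebraMap O Q.Coef (S.lift l))) = _
  rw [AlgHom.commutes]

end TWData

end FLTAgent.LevelLowering
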