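import Fermat.Agent.LevelLowering.Core.Points
import Fermat.Agent.LevelLowering.Points.Assemble

/-!
# The family of trace functions of the points of both sides

`exists_family`: all points take values in one coefficient ring, their eigenvalues come from
trace functions lifting the residual representation, and the associated representations have the
local properties `PointProps`.  This is the input of `LevelLowering.Core.Datum`.
-/

set_option autoImplicit false

noncomputable section

open IsLocalRing Matrix WeierstrassCurve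

namespace FLTAgent.LevelLowering

open FLTAgent.Density (GalQ Qbar)
open FLTAgent.DefRing FLTAgent.ModularityLifting FLTAgent.GaloisAttach FLTAgent.HeckePoints
  FLTAgent.LevelRaising

variable {p : ℕ} [Fact p.Prime] {W : WeierstrassCurve ℤ} {O : Type} [CommRing O] [IsDomain O]
  [IsDiscreteValuationRing O] [IsAdicComplete (maximalIdeal O) O] [Finite (ResidueField O)]
  [CharP (ResidueField O) p] [CharZero O] {S : LowerSetup p W O} {r n : ℕ}

namespace TWData

variable (Q : TWData S r n) {d : ℕ} (B : ∀ tw : Bool, EigenBasis (Q.delta tw) Q.badSet Q.aA d)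

/-- **The trace functions of all points**, lifting the residual representation, with their local
properties. -/
theorem exists_family (hp2 : p ≠ 2) (hd : 0 < d)
    (hpO : (p : O) ∈ maximalIdeal O) :
    ∃ (C : Type) (_ : CommRing C) (_ : IsDomain C) (_ : IsDiscreteValuationRing C)
      (_ : IsAdicComplete (maximalIdeal C) C) (_ : Finite (ResidueField C)) (_ : CharZero C)
      (_ : Algebra O C) (_ : Module.Finite O C) (_ : Module.Free O C)
      (_ : IsLocalHom (algebraMap O C)) (j : C →ₐ[O] Kbar O) (hpC : (p : C) ∈ maximalIdeal C)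
      (f : Q.Pt B C → GalQ → C),
      Function.Injective j ∧ (∀ (x : Q.pairAlg B →ₐ[O] Kbar O) t, x t ∈ j.range) ∧
      (∀ z : Q.Pt B C,
        IsPointTrace hpC (Q.level * p).primeFactors (fun l => z.1.1 (Q.frobGen B l)) (f z)) ∧
      (∀ z g, residue C (f z g) = ResidueField.map (algebraMap O C) (S.R.rep g).trace) ∧
      ∀ (z : Q.Pt B C) (ρ : MatRep C), MatCont ρ → (∀ σ, (ρ σ).det = cycChar hpC σ) →
        (∀ σ, (ρ σ).trace = f z σ) → Q.PointProps z.1.2 (Q.coefHom B z.1.1) ρ := by
  obtain ⟨C, _, _, _, _, _, _, _, _, _, _, j, hj, hall⟩ := Q.exists_pointCoeff B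
  have hpC : (p : C) ∈ maximalIdeal C := by
    rw [← map_natCast (algebraMap O C)]; exact map_nonunit _ _ hpO
  have key : ∀ z : Q.Pt B C, ∃ f : GalQ → C,
      IsPointTrace hpC (Q.level * p).primeFactors (fun l => z.1.1 (Q.frobGen B l)) f ∧
      (∀ g, residue C (f g) = ResidueField.map (algebraMap O C) (S.R.rep g).trace) ∧
      ∀ ρ : MatRep C, MatCont ρ → (∀ σ, (ρ σ).det = cycChar hpC σ) → (∀ σ, (ρ σ).trace = f σ) →
        Q.PointProps z.1.2 (Q.coefHom B z.1.1) ρ := by
    rintro ⟨⟨x, tw⟩, hx⟩
    obtain ⟨v, hne, hv⟩ := Q.exists_eigensymbol B j tw x hx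
    obtain ⟨f, hf, hres, hprops⟩ := Q.exists_point_props tw hp2 hpC
      ⟨j, hj, d, (B tw).b, (B tw).mem, v, hne, hv,
        fun l hl hlS => Q.residue_eigenVal B tw x hx hd hl hlS⟩
    refine ⟨f, ⟨hf.pseudo, hf.cont, hf.conj, fun l hl hlS P hP φ hφ => ?_⟩, hres, hprops⟩
    rw [hf.frob l hl hlS P hP φ hφ]
    exact Q.inverse_mul_eigenVal B tw x hl fun h => hlS (Nat.mem_primeFactors.mpr
      ⟨hl, h, mul_ne_zero Q.level_ne_zero (Fact.out : p.Prime).ne_zero⟩)
  choose f hf hres hprops using key
  exact ⟨C, inferInstance, inferInstance, inferInstance, inferInstance, inferInstance,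
    inferInstance, inferInstance, inferInstance, inferInstance, inferInstance, j, hpC, f, hj, hall,
    hf, hres, hprops⟩

end TWData

end FLTAgent.LevelLowering
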