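import Fermat.Agent.LevelLowering.Core.Basic
import Fermat.Agent.LevelLowering.Level.GroupAlg
import Mathlib.NumberTheory.MulChar.Basic

/-!
# The two nebentype characters of a set of Taylor–Wiles primes

At a prime `q i` the character `chi` sends a generator to the group element of index `i`; on the
twisted side a site `v` gets a character of order the exact `p`-power dividing `v - 1`.  The
nebentype `delta` is the product of the squares, and `scalar` the scalar of the twist; both sides
of the patching argument are defined with them.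
-/

set_option autoImplicit false

noncomputable section

open IsLocalRing WeierstrassCurve

namespace FLTAgent.LevelLowering

open FLTAgent.Density (GalQ Qbar)
open FLTAgent.DefRing FLTAgent.ModularityLifting FLTAgent.GaloisAttach

/-- A generator of the units modulo a prime. -/
def unitGen (t : ℕ) [Fact t.Prime] : (ZMod t)ˣ :=
  (IsCyclic.exists_generator (α := (ZMod t)ˣ)).choose

theorem unitGen_spec (t : ℕ) [Fact t.Prime] (x : (ZMod t)ˣ) : x ∈ Subgroup.zpowers (unitGen t) :=
  (IsCyclic.exists_generator (α := (ZMod t)ˣ)).choose_spec x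

theorem exists_unitGen_pow (t : ℕ) [Fact t.Prime] (x : (ZMod t)ˣ) : ∃ k : ℕ, unitGen t ^ k = x :=
  (mem_powers_iff_mem_zpowers (x := unitGen t)).mpr (unitGen_spec t x)

section PrimeChar

variable {A : Type} [CommRing A] (t : ℕ) (u : A)

open scoped Classical in
/-- The character of a prime modulus sending the generator to `u`, or the trivial one. -/
def primeChar : DirichletCharacter A t :=
  if h : t.Prime ∧ u ^ (t - 1) = 1 then
    haveI : Fact t.Prime := ⟨h.1⟩
    haveI : NeZero t := ⟨h.1.ne_zero⟩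
    MulChar.ofRootOfUnity
      (ζ := Units.ofPowEqOne u (t - 1) h.2 (Nat.sub_ne_zero_of_lt h.1.one_lt))
      (by rw [mem_rootsOfUnity, ZMod.card_units t, Units.pow_ofPowEqOne]) (unitGen_spec t)
  else 1

variable {t u}

theorem primeChar_of_not (h : ¬ (t.Prime ∧ u ^ (t - 1) = 1)) : primeChar t u = 1 := dif_neg h

theorem primeChar_gen [Fact t.Prime] (h : u ^ (t - 1) = 1) :
    primeChar t u (unitGen t : ZMod t) = u := by
  rw [primeChar, dif_pos ⟨Fact.out, h⟩, MulChar.ofRootOfUnity_spec]
  rfl

theorem primeChar_apply_unit [Fact t.Prime] (h : u ^ (t - 1) = 1) (x : (ZMod t)ˣ) :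
    ∃ k : ℕ, unitGen t ^ k = x ∧ primeChar t u (x : ZMod t) = u ^ k := by
  obtain ⟨k, rfl⟩ := exists_unitGen_pow t x
  exact ⟨k, rfl, by rw [Units.val_pow_eq_pow_val, map_pow, primeChar_gen h]⟩

theorem primeChar_pow_eq_one {m : ℕ} (hu : u ^ m = 1) : primeChar t u ^ m = 1 := by
  by_cases h : t.Prime ∧ u ^ (t - 1) = 1
  · have : Fact t.Prime := ⟨h.1⟩
    refine MulChar.ext fun x => ?_
    obtain ⟨k, -, hk⟩ := primeChar_apply_unit h.2 x
    rw [MulChar.pow_apply_coe, MulChar.one_apply_coe, hk, pow_right_comm, hu, one_pow]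
  · rw [primeChar_of_not h, one_pow]

theorem map_primeChar {B : Type} [CommRing B] (φ : A →+* B) (hu : u ^ (t - 1) = 1) :
    (primeChar t u).ringHomComp φ = primeChar t (φ u) := by
  by_cases ht : t.Prime
  · have : Fact t.Prime := ⟨ht⟩
    refine MulChar.ext fun x => ?_
    obtain ⟨k, rfl⟩ := exists_unitGen_pow t x
    rw [MulChar.ringHomComp_apply, Units.val_pow_eq_pow_val, map_pow, primeChar_gen hu, map_pow,
      map_pow, primeChar_gen (by rw [← map_pow, hu, map_one])]
  · rw [primeChar_of_not fun h => ht h.1, primeChar_of_not fun h => ht h.1,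
      MulChar.ringHomComp_one]

theorem primeChar_one : primeChar t (1 : A) = 1 := by
  simpa using primeChar_pow_eq_one (t := t) (u := (1 : A)) (m := 1) (pow_one _)

end PrimeChar

variable {p : ℕ} {W : WeierstrassCurve ℤ} {O : Type} [CommRing O] [IsDomain O]
  [IsDiscreteValuationRing O] {S : LowerSetup p W O}

namespace LowerSetup

open scoped Classical in
/-- A root of unity of order the exact `p`-power dividing `v - 1`, at a site. -/
def siteRoot (S : LowerSetup p W O) (v : ℕ) : O :=
  if h : ∃ ζ : O, v ∈ S.sites ∧ IsPrimitiveRoot ζ (p ^ (v - 1).factorization p) then h.choose else 1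

theorem siteRoot_spec {v : ℕ} (hv : v ∈ S.sites) :
    IsPrimitiveRoot (S.siteRoot v) (p ^ (v - 1).factorization p) := by
  classical
  obtain ⟨hv1, hv2⟩ := Finset.mem_filter.mp hv
  obtain ⟨hvp, hvM, -⟩ := Nat.mem_primeFactors.mp hv1
  obtain ⟨ζ, hζ⟩ := S.roots v hvp hvM hv2.1
  have h : ∃ ζ : O, v ∈ S.sites ∧ IsPrimitiveRoot ζ (p ^ (v - 1).factorization p) := ⟨ζ, hv, hζ⟩
  rw [siteRoot, dif_pos h]
  exact h.choose_spec.2

theorem siteRoot_of_notMem {v : ℕ} (hv : v ∉ S.sites) : S.siteRoot v = 1 := by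
  classical
  rw [siteRoot, dif_neg]
  rintro ⟨-, h, -⟩
  exact hv h

theorem siteRoot_pow_sub_one (v : ℕ) : S.siteRoot v ^ (v - 1) = 1 := by
  by_cases hv : v ∈ S.sites
  · obtain ⟨c, hc⟩ := Nat.ordProj_dvd (v - 1) p
    rw [hc, pow_mul, (S.siteRoot_spec hv).pow_eq_one, one_pow]
  · rw [siteRoot_of_notMem hv, one_pow]

end LowerSetup

namespace TWData

variable {r n : ℕ} (Q : TWData S r n) [Fact p.Prime]

/-- The coefficient ring of a level. -/
abbrev Coef (_ : TWData S r n) : Type := LevelAlg O r (p ^ (n + 1))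

open scoped Classical in
/-- The value at the generator of the character at a prime; `tw` distinguishes the two sides. -/
def unitVal (tw : Bool) (t : ℕ) : Q.Coef :=
  if h : ∃ i, Q.q i = t then MonoidAlgebra.of O _ (levelGen r (p ^ (n + 1)) h.choose)
  else algebraMap O Q.Coef (if tw then S.siteRoot t else 1)

/-- The character at a prime. -/
def chi (tw : Bool) (t : ℕ) : DirichletCharacter Q.Coef t := primeChar t (Q.unitVal tw t)

/-- The nebentype: the product of the squares. -/
def delta (tw : Bool) : DirichletCharacter Q.Coef Q.level :=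
  ∏ t ∈ Q.level.primeFactors.attach,
    DirichletCharacter.changeLevel (Nat.dvd_of_mem_primeFactors t.2) (Q.chi tw t.1 ^ 2)

/-- The scalar of the twist. -/
def scalar (tw : Bool) (d : ℕ) : Q.Coef := ∏ t ∈ Q.level.primeFactors, Q.chi tw t (d : ZMod t)

theorem q_sub_one (i : Fin r) : ∃ c, Q.q i - 1 = p ^ (n + 1) * c := by
  refine (Nat.modEq_iff_dvd' (Q.prime i).one_le).mp (Nat.ModEq.symm ?_)
  show Q.q i % _ = 1 % _
  rw [Q.mod_pow i]
  rw [Nat.mod_eq_of_lt (Nat.one_lt_pow (Nat.succ_ne_zero n) (Fact.out : p.Prime).one_lt)]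

omit [Fact p.Prime] in
theorem unitVal_q (tw : Bool) (i : Fin r) :
    Q.unitVal tw (Q.q i) = MonoidAlgebra.of O _ (levelGen r (p ^ (n + 1)) i) := by
  classical
  have h : ∃ j, Q.q j = Q.q i := ⟨i, rfl⟩
  rw [unitVal, dif_pos h, Q.inj h.choose_spec]

omit [Fact p.Prime] in
theorem unitVal_of_ne (tw : Bool) {t : ℕ} (h : ∀ i, Q.q i ≠ t) :
    Q.unitVal tw t = algebraMap O Q.Coef (if tw then S.siteRoot t else 1) := by
  classical
  rw [unitVal, dif_neg fun ⟨i, hi⟩ => h i hi]

theorem unitVal_pow_sub_one (tw : Bool) (t : ℕ) : Q.unitVal tw t ^ (t - 1) = 1 := by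
  classical
  by_cases h : ∃ i, Q.q i = t
  · obtain ⟨i, rfl⟩ := h
    obtain ⟨c, hc⟩ := Q.q_sub_one i
    rw [unitVal_q, hc, pow_mul, ← map_pow, show levelGen r (p ^ (n + 1)) i ^ p ^ (n + 1) = 1 from
      Multiplicative.toAdd.injective (by ext; simp), map_one, one_pow]
  · rw [unitVal, dif_neg h, ← map_pow]
    cases tw
    · simp only [Bool.false_eq_true, if_false, one_pow, map_one]
    · simp only [if_true, S.siteRoot_pow_sub_one, map_one]

theorem chi_gen (tw : Bool) (t : ℕ) [Fact t.Prime] :
    Q.chi tw t (unitGen t : ZMod t) = Q.unitVal tw t :=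
  primeChar_gen (Q.unitVal_pow_sub_one tw t)

omit [Fact p.Prime] in
theorem delta_apply (tw : Bool) {d : ℤ} (hd : IsUnit (d : ZMod Q.level)) :
    Q.delta tw (d : ZMod Q.level) = ∏ t ∈ Q.level.primeFactors, Q.chi tw t (d : ZMod t) ^ 2 := by
  classical
  rw [← Finset.prod_attach Q.level.primeFactors fun t => Q.chi tw t (d : ZMod t) ^ 2, delta]
  induction Q.level.primeFactors.attach using Finset.induction_on with
  | empty => rw [Finset.prod_empty, Finset.prod_empty, MulChar.one_apply hd]
  | insert t s ht ih =>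
    rw [Finset.prod_insert ht, Finset.prod_insert ht, MulChar.mul_apply, ih,
      changeLevel_intCast _ _ _ hd, MulChar.pow_apply' _ two_ne_zero]

end TWData

end FLTAgent.LevelLowering
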