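import Fermat.Agent.LevelLowering.Core.Levels
import Fermat.Agent.ModularityLifting.PointsDatum.LocalFacts

/-!
# The local properties of the representation of a point

`TWData.PointProps` lists them: unramified outside the level, Steinberg at residually ramified
primes, strict or flat at `p`, the behaviour at the sites of each side and the trace on inertia at
the Taylor–Wiles primes.  Proved in `LevelLowering.Points`, consumed by the patching datum.
-/

set_option autoImplicit false

noncomputable section

open IsLocalRing WeierstrassCurve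

namespace FLTAgent.LevelLowering

open FLTAgent.Density (GalQ Qbar)
open FLTAgent.DefRing FLTAgent.ModularityLifting FLTAgent.GaloisAttach

variable {p : ℕ} {W : WeierstrassCurve ℤ} {O : Type} [CommRing O] [IsDomain O]
  [IsDiscreteValuationRing O] {S : LowerSetup p W O} {r n : ℕ} (Q : TWData S r n)

/-- The local properties of the representation `ρ` of a point where the group elements take the
values given by `φ`; on the twisted side no site is Steinberg, on the other side all are. -/
structure TWData.PointProps (tw : Bool) {C : Type} [CommRing C] [Algebra O C]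
    (φ : Q.Coef →ₐ[O] C) (ρ : MatRep C) : Prop where
  unramified : ∀ q, q.Prime → q ∉ S.loc → q ≠ p → (∀ i, Q.q i ≠ q) → UnramifiedAt ρ q
  steinberg : ∀ v ∈ S.ramPrimes, ∃ ε : ℤ, (ε = 1 ∨ ε = -1) ∧ SteinbergAt ρ v (ε : C)
  strict : p ∈ S.loc → ∃ ε : ℤ, (ε = 1 ∨ ε = -1) ∧ StrictAt ρ p (ε : C)
  flat : p ∉ S.loc → FlatAt ρ p
  site : tw = false → ∀ v ∈ S.sites, ∃ ε : ℤ, (ε = 1 ∨ ε = -1) ∧ SteinbergAt ρ v (ε : C)
  twSite : tw = true → ∀ v ∈ S.sites,
    ∃ σ ∈ (Start.place v).inertiaSubgroupIn ℚ, (ρ σ).trace ≠ 2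
  twPrime : ∀ i, haveI : Fact (Q.q i).Prime := ⟨Q.prime i⟩
    ∀ σ ∈ (Start.place (Q.q i)).inertiaSubgroupIn ℚ,
      ExtCitation.cycloChar (Q.q i) σ = unitGen (Q.q i) →
      (ρ σ).trace * φ (Q.unitVal tw (Q.q i)) =
        φ (Q.unitVal tw (Q.q i)) * φ (Q.unitVal tw (Q.q i)) + 1

end FLTAgent.LevelLowering
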