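import Fermat.Agent.LevelLowering.Core.Pair

/-!
# The points of the Hecke algebra of both sides and their representations

All points take values in one coefficient ring (`exists_pointCoeff`); their trace functions
generate an algebra whose elements lift to the Hecke algebra (`trAlg_le_range`).  Elements small
at all points are nilpotent, which turns pointwise identities into identities of the datum.
-/

set_option autoImplicit false

noncomputable section

open IsLocalRing Matrix WeierstrassCurve Polynomial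

namespace FLTAgent.LevelLowering

open FLTAgent.Density (GalQ Qbar)
open FLTAgent.DefRing FLTAgent.ModularityLifting FLTAgent.GaloisAttach FLTAgent.HeckePoints
  FLTAgent.LevelRaising

/-- An element of the maximal ideal has a monic annihilator with non-leading coefficients in the
maximal ideal of the base. -/
theorem exists_topNil_poly {O C : Type} [CommRing O] [IsLocalRing O] [CommRing C] [IsDomain C]
    [IsDiscreteValuationRing C] [Algebra O C] [Module.Free O C] [Module.Finite O C]
    (hne : ∃ o ∈ maximalIdeal O, algebraMap O C o ≠ 0) {c : C} (hc : c ∈ maximalIdeal C) :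
    ∃ P : O[X], P.map (residue O) = X ^ P.natDegree ∧ aeval c P = 0 := by
  classical
  let bC := Module.Free.chooseBasis O C
  let L := Algebra.leftMulMatrix bC
  refine ⟨(L c).charpoly, ?_, Algebra.leftMulMatrix_injective bC (by
    rw [← aeval_algHom_apply, Matrix.aeval_self_charpoly, map_zero])⟩
  obtain ⟨π, hπ⟩ := IsDiscreteValuationRing.exists_irreducible C
  obtain ⟨o, ho, hoC⟩ := hne
  obtain ⟨e, v, hv⟩ := IsDiscreteValuationRing.eq_unit_mul_pow_irreducible hoC hπ
  rw [hπ.maximalIdeal_eq, Ideal.mem_span_singleton'] at hc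
  obtain ⟨w, rfl⟩ := hc
  have hpow : (w * π) ^ e = algebraMap O C o * (↑v⁻¹ * w ^ e) := by
    rw [hv, mul_pow, mul_mul_mul_comm, Units.mul_inv, one_mul, mul_comm]
  have hnil : IsNilpotent ((L (w * π)).map (residue O)) := by
    refine ⟨e, ?_⟩
    rw [← RingHom.mapMatrix_apply, ← map_pow, ← map_pow, hpow, ← Algebra.smul_def, map_smul,
      RingHom.mapMatrix_apply]
    ext i k
    rw [Matrix.map_apply, Matrix.smul_apply, smul_eq_mul, map_mul,
      (residue_eq_zero_iff o).mpr ho, zero_mul, Matrix.zero_apply]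
  have h := Matrix.isNilpotent_charpoly_sub_pow_of_isNilpotent hnil
  have h' : ((L (w * π)).charpoly).map (residue O) =
      X ^ Fintype.card (Module.Free.ChooseBasisIndex O C) := by
    rw [← Matrix.charpoly_map]
    exact sub_eq_zero.mp (Polynomial.ext fun m => by
      simpa using (Polynomial.isNilpotent_iff.mp h m).eq_zero)
  rw [h', Matrix.charpoly_natDegree_eq_dim]

variable {p : ℕ} [Fact p.Prime] {W : WeierstrassCurve ℤ} {O : Type} [CommRing O] [IsDomain O]
  [IsDiscreteValuationRing O] [CharP (ResidueField O) p] {S : LowerSetup p W O} {r n : ℕ}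

namespace TWData

variable (Q : TWData S r n) {d : ℕ} (B : ∀ tw : Bool, EigenBasis (Q.delta tw) Q.badSet Q.aA d)

variable [IsAdicComplete (maximalIdeal O) O] [Finite (ResidueField O)] [CharZero O] in
/-- All points take values in a finite extension of the coefficients. -/
theorem exists_pointCoeff :
    ∃ (C : Type) (_ : CommRing C) (_ : IsDomain C) (_ : IsDiscreteValuationRing C)
      (_ : IsAdicComplete (maximalIdeal C) C) (_ : Finite (ResidueField C)) (_ : CharZero C)
      (_ : Algebra O C) (_ : Module.Finite O C) (_ : Module.Free O C)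
      (_ : IsLocalHom (algebraMap O C)) (j : C →ₐ[O] Kbar O),
      Function.Injective j ∧ ∀ (x : Q.pairAlg B →ₐ[O] Kbar O) t, x t ∈ j.range := by
  classical
  obtain ⟨s, hs⟩ := Module.Finite.fg_top (R := O) (M := Q.pairAlg B)
  have := finite_points O (Q.pairAlg B)
  let Z : Set (Kbar O) := Set.range fun xt : (Q.pairAlg B →ₐ[O] Kbar O) × s => xt.1 xt.2.1
  obtain ⟨C, i1, i2, i3, i4, i5, i6, i7, i8, i9, i10, j, hj, -, hsub⟩ :=
    exists_coeff O Z (Set.finite_range _) fun z hz => by
      obtain ⟨⟨x, t⟩, rfl⟩ := hz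
      exact (Algebra.IsIntegral.isIntegral (R := O) t.1).map x
  refine ⟨C, i1, i2, i3, i4, i5, i6, i7, i8, i9, i10, j, hj, fun x t => ?_⟩
  have ht : t ∈ Submodule.span O (s : Set (Q.pairAlg B)) := hs ▸ Submodule.mem_top
  induction ht using Submodule.span_induction with
  | mem y hy => exact hsub ⟨(x, ⟨y, hy⟩), rfl⟩
  | zero => rw [map_zero]; exact zero_mem _
  | add y z _ _ hy hz => rw [map_add]; exact add_mem hy hz
  | smul o y _ hy => rw [map_smul]; exact Subalgebra.smul_mem _ hy o

variable {C : Type} [CommRing C] [Algebra O C]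

/-- The points of the two sides. -/
abbrev Pt (C : Type) [CommRing C] [Algebra O C] : Type :=
  {z : (Q.pairAlg B →ₐ[O] C) × Bool // Q.OnSide B z.2 z.1}

/-- The values at all points. -/
def evalAll : Q.pairAlg B →ₐ[O] (Q.Pt B C → C) := AlgHom.pi fun z => z.1.1

variable (j : C →ₐ[O] Kbar O) (hj : Function.Injective j)

include hj in
theorem finite_pt : Finite (Q.Pt B C) := by
  have := finite_points O (Q.pairAlg B)
  refine Finite.of_injective (fun z : Q.Pt B C => (j.comp z.1.1, z.1.2)) fun z z' h => ?_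
  obtain ⟨h1, h2⟩ := Prod.mk.injEq _ _ _ _ ▸ h
  exact Subtype.ext (Prod.ext (AlgHom.ext fun t => hj (DFunLike.congr_fun h1 t)) h2)

variable (hall : ∀ (x : Q.pairAlg B →ₐ[O] Kbar O) t, x t ∈ j.range)

include hj hall in
theorem exists_pt_lift (tw : Bool) (x : Q.pairAlg B →ₐ[O] Kbar O) (hx : Q.OnSide B tw x) :
    ∃ z : Q.Pt B C, z.1.2 = tw ∧ ∀ t, j (z.1.1 t) = x t := by
  let xC : Q.pairAlg B →ₐ[O] C :=
    (AlgEquiv.ofInjective j hj).symm.toAlgHom.comp (x.codRestrict j.range (hall x))
  have hxC : ∀ t, j (xC t) = x t := fun t =>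
    congrArg Subtype.val ((AlgEquiv.ofInjective j hj).apply_symm_apply _)
  exact ⟨⟨(xC, tw), fun t ht => hj (by rw [hxC, hx t ht, map_zero])⟩, rfl, hxC⟩

include hj hall in
/-- An element vanishing at the points of a side is nilpotent there. -/
theorem isNilpotent_proj_of_pt (tw : Bool) (t : Q.pairAlg B)
    (h : ∀ z : Q.Pt B C, z.1.2 = tw → z.1.1 t = 0) : IsNilpotent (Q.proj B tw t) :=
  Q.isNilpotent_proj B tw t fun x hx => by
    obtain ⟨z, hz, hzt⟩ := Q.exists_pt_lift B j hj hall tw x hx
    rw [← hzt, h z hz, map_zero]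

include hj hall in
theorem exists_pt (tw : Bool) (hd : 0 < d) : ∃ z : Q.Pt B C, z.1.2 = tw := by
  by_contra h
  push Not at h
  obtain ⟨k, hk⟩ := Q.isNilpotent_proj_of_pt B j hj hall tw 1 fun z hz => absurd hz (h z)
  have : Nonempty (Fin d) := ⟨⟨0, hd⟩⟩
  rw [map_one, one_pow] at hk
  exact one_ne_zero hk

variable [IsDomain C] [IsDiscreteValuationRing C] [Module.Finite O C] [Module.Free O C]
  [IsLocalHom (algebraMap O C)]

include hj hall in
omit [IsLocalHom (algebraMap O C)] in
/-- An element which is topologically nilpotent at the points of a side is residually nilpotent. -/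
theorem isNilpotent_residue_proj (tw : Bool) (t : Q.pairAlg B)
    (h : ∀ z : Q.Pt B C, z.1.2 = tw → z.1.1 t ∈ maximalIdeal C) :
    IsNilpotent ((residue Q.Coef).mapMatrix (Q.proj B tw t)) := by
  classical
  have := Q.finite_pt B j hj
  have := Fintype.ofFinite (Q.Pt B C)
  have hne : ∃ o ∈ maximalIdeal O, algebraMap O C o ≠ 0 := by
    obtain ⟨π, hπ⟩ := IsDiscreteValuationRing.exists_irreducible O
    exact ⟨π, hπ.not_isUnit, fun h0 => hπ.ne_zero (algebraMap_kbar_injective O (by
      rw [← j.commutes π, h0, map_zero, map_zero]))⟩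
  have hP : ∀ z : Q.Pt B C, z.1.2 = tw →
      ∃ P : O[X], P.map (residue O) = X ^ P.natDegree ∧ aeval (z.1.1 t) P = 0 :=
    fun z hz => exists_topNil_poly hne (h z hz)
  choose P hP1 hP2 using hP
  let R : O[X] := ∏ z : {z : Q.Pt B C // z.1.2 = tw}, P z.1 z.2
  obtain ⟨m, hm⟩ := Q.isNilpotent_proj_of_pt B j hj hall tw (aeval t R) fun z hz => by
    rw [← aeval_algHom_apply, map_prod]
    exact Finset.prod_eq_zero (Finset.mem_univ ⟨z, hz⟩) (hP2 z hz)
  have hR : R.map (residue O) = X ^ ∑ z : {z : Q.Pt B C // z.1.2 = tw}, (P z.1 z.2).natDegree := by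
    rw [Polynomial.map_prod, ← Finset.prod_pow_eq_pow_sum]
    exact Finset.prod_congr rfl fun z _ => hP1 z.1 z.2
  refine ⟨(∑ z : {z : Q.Pt B C // z.1.2 = tw}, (P z.1 z.2).natDegree) * m, ?_⟩
  let f : Q.pairAlg B →+* Matrix (Fin d) (Fin d) (ResidueField Q.Coef) :=
    (residue Q.Coef).mapMatrix.comp (Q.proj B tw).toRingHom
  have h1 : f (aeval t R) ^ m = 0 := by
    rw [← map_pow]
    show (residue Q.Coef).mapMatrix (Q.proj B tw (aeval t R ^ m)) = 0
    rw [map_pow, hm, map_zero]
  have h2 : f (aeval t R) = (R.map (residue O)).eval₂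
      ((algebraMap (ResidueField Q.Coef) _).comp (ResidueField.map (algebraMap O Q.Coef)))
      (f t) := by
    rw [eval₂_map, aeval_def, hom_eval₂]
    congr 1
    refine RingHom.ext fun o => ?_
    simp only [RingHom.comp_apply, ResidueField.map_residue]
    show (residue Q.Coef).mapMatrix
      (Q.proj B tw (algebraMap Q.Coef (Q.pairAlg B) (algebraMap O Q.Coef o))) = _
    rw [AlgHom.commutes]
    ext i k
    simp [Matrix.algebraMap_matrix_apply, apply_ite (residue Q.Coef)]
  rw [h2, hR, eval₂_X_pow, ← pow_mul] at h1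
  exact h1

section Traces

variable [CharZero C] [IsAdicComplete (maximalIdeal C) C] [Finite (ResidueField C)]
  {hpC : (p : C) ∈ maximalIdeal C} {f : Q.Pt B C → GalQ → C}
  (hf : ∀ z : Q.Pt B C,
    IsPointTrace hpC (Q.level * p).primeFactors (fun l => z.1.1 (Q.frobGen B l)) (f z))

include hj hf in
omit [Module.Free O C] [Finite (ResidueField C)] in
variable [IsAdicComplete (maximalIdeal O) O] in
/-- The algebra generated by the traces lifts to the Hecke algebra. -/
theorem trAlg_le_range (hpO : (p : O) ∈ maximalIdeal O) :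
    trAlg O f ≤ (Q.evalAll B : Q.pairAlg B →ₐ[O] Q.Pt B C → C).range := by
  have := Q.finite_pt B j hj
  refine Algebra.adjoin_le ?_
  rintro _ ⟨g, rfl⟩
  refine trace_mem_subalgebra (lam := (p : O)) hpO ?_ _ (ε := cycChar hpO)
    (fun z => isPseudoRep_family hf hpO z) (fun z => ?_) (Q.level * p).primeFactors
    (fun ℓ hℓ hℓS P hP σ hσ => (AlgHom.mem_range _).mpr ⟨Q.frobGen B ℓ, funext fun z => ?_⟩) g
  · rw [map_natCast]
    exact Nat.cast_ne_zero.mpr (Fact.out : p.Prime).ne_zero
  · show TraceCont _ _ _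
    rw [algebraMap_cycChar (hpC := hpC) hpO]
    exact (hf z).cont
  · exact ((hf z).frob ℓ hℓ hℓS P hP σ hσ).symm

end Traces

end TWData

end FLTAgent.LevelLowering
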