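import Fermat.Agent.LevelLowering.Level.PointTrace
import Fermat.Prelude.Def_FLTPrelim_ModularRep

/-!
# A minimal counterexample to level lowering

`LowerSetup`: `M` is a squarefree level of residual modularity which is minimal, at whose
residually unramified primes `r ≠ p` we have `r ≡ 1 (mod p)`, and `q` is one of those primes.
For `p = 3` the level carries an extra prime `E ≡ 2 (mod 3)`; otherwise `E = 1`.  `LowerCore`
says that there is no such setup; the outer argument reduces level lowering to it.
-/

set_option autoImplicit false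

noncomputable section

open IsLocalRing WeierstrassCurve

namespace FLTAgent.LevelLowering

open FLTAgent.Density (GalQ Qbar)
open FLTAgent.DefRing FLTAgent.ModularityLifting FLTAgent.GaloisAttach

/-- A minimal counterexample, with coefficients having enough roots of unity. -/
structure LowerSetup (p : ℕ) (W : WeierstrassCurve ℤ) (O : Type) [CommRing O] [IsDomain O]
    [IsDiscreteValuationRing O] where
  /-- the residual representation -/
  R : ResidualRep p (ResidueField O)
  irr_index_two : ∀ G : Subgroup AbsGal, G.index = 2 → AbsIrreducibleOn R.rep G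
  split : ∀ σ, ∃ α β : ResidueField O, α + β = (R.rep σ).trace ∧ α * β = (R.rep σ).det
  trace_good : ∀ ℓ, ℓ.Prime → W.IsGoodPrimeFor ℓ → ℓ ≠ p → ∀ P : ValuationSubring Qbar,
    P.LiesOverPrime ℓ → ∀ φ, P.IsFrobeniusAt φ ℓ →
      (R.rep φ).trace = (W.apOfModel ℓ : ResidueField O)
  disc_ne : W.Δ ≠ 0
  /-- the minimal level -/
  M : ℕ
  sqfree : Squarefree M
  /-- the extra level -/
  E : ℕ
  E_eq : p ≠ 3 → E = 1
  E_three : p = 3 → E.Prime ∧ E % 3 = 2 ∧ ¬ E ∣ M ∧ UnramifiedAt R.rep E ∧
    ∀ P : ValuationSubring Qbar, P.LiesOverPrime E → ∀ φ, P.IsFrobeniusAt φ E → (R.rep φ).trace ≠ 0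
  residual : W.IsResiduallyModularOfLevel p (M * E)
  minimal : ∀ r, r.Prime → r ∣ M → ¬ W.IsResiduallyModularOfLevel p (M / r * E)
  mod_one : ∀ r, r.Prime → r ∣ M → r ≠ p → UnramifiedAt R.rep r → r % p = 1
  /-- the prime to be removed -/
  q : ℕ
  q_prime : q.Prime
  q_ne : q ≠ p
  q_dvd : q ∣ M
  q_unr : UnramifiedAt R.rep q
  roots : ∀ r, r.Prime → r ∣ M → r ≠ p →
    ∃ ζ : O, IsPrimitiveRoot ζ (p ^ (r - 1).factorization p)

/-- The core of level lowering: there is no minimal counterexample. -/
def LowerCore (p : ℕ) [Fact p.Prime] : Prop :=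
  ∀ (W : WeierstrassCurve ℤ) (O : Type) [CommRing O] [IsDomain O] [IsDiscreteValuationRing O]
    [IsAdicComplete (maximalIdeal O) O] [Finite (ResidueField O)] [CharZero O]
    [CharP (ResidueField O) p], LowerSetup p W O → False

end FLTAgent.LevelLowering
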